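/-
MAZUR (Track M), package (S) (helper5), part 1: **cone-Selmer groups by explicit cocycles**.

`G` a topological group, `X` a `G`-module, `Dp ⊇ Ip` two subgroups of `G` ("decomposition and inertia
at the level prime `p`").  A cone-Selmer structure on `X` (`MzsStr`) consists of
* `Xp ≤ X` : a `Dp`-stable subgroup fixed by `Ip` (in the application the image of `M^{I_p}`);
* `loc ≤ (G → X)` : the Selmer conditions away from `p` (at `P` and at all `ℓ ∉ {p, P}`), a subgroup
  of functions containing all coboundaries.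

`H̃¹(X) = Z̃¹ / B̃¹`, where `Z̃¹` is the group of pairs `(c, m)`, `c : G → X` a locally constant
1-cocycle in `loc`, `m : X`, such that `c - dm` is trivial on `Ip` and has values in `Xp` on `Dp`
(so that `c_p := (c - dm)|Dp` is the inflation of a cocycle of `Dp / Ip` with values in `Xp`: the
triple `(c, c_p, m)` of helper7's design, finding #110 (2)), and `B̃¹ = {(dx, x - x_p)}`.
`H̃⁰(X) = X^G ∩ Xp`.
-/
import Mathlib

set_option autoImplicit false
set_option linter.unusedSectionVars false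

namespace Fermat.Agent.Mazur

variable {G : Type*} [Group G] [TopologicalSpace G]
variable {X : Type*} [AddCommGroup X] [DistribMulAction G X]

/-- the coboundary `g ↦ g • x - x` -/
def mzsD (G : Type*) [Group G] {X : Type*} [AddCommGroup X] [DistribMulAction G X] (x : X) :
    G → X := fun g => g • x - x

@[simp] theorem mzsD_apply (x : X) (g : G) : mzsD G x g = g • x - x := rfl

theorem mzsD_add (x y : X) : mzsD G (x + y) = mzsD G x + mzsD G y := by
  funext g
  simp only [mzsD_apply, Pi.add_apply, smul_add]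
  abel

theorem mzsD_zero : mzsD G (0 : X) = 0 := by
  funext g
  simp

theorem mzsD_neg (x : X) : mzsD G (-x) = -mzsD G x := by
  funext g
  simp only [mzsD_apply, Pi.neg_apply, smul_neg]
  abel

theorem mzsD_sub (x y : X) : mzsD G (x - y) = mzsD G x - mzsD G y := by
  rw [sub_eq_add_neg, mzsD_add, mzsD_neg, sub_eq_add_neg]

/-- `c` is a 1-cocycle -/
def MzsCocycle (c : G → X) : Prop := ∀ g h : G, c (g * h) = c g + g • c h

theorem mzsCocycle_D (x : X) : MzsCocycle (mzsD G x) := by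
  intro g h
  simp only [mzsD_apply, mul_smul, smul_sub]
  abel

theorem MzsCocycle.add {c c' : G → X} (hc : MzsCocycle c) (hc' : MzsCocycle c') :
    MzsCocycle (c + c') := by
  intro g h
  simp only [Pi.add_apply, hc g h, hc' g h, smul_add]
  abel

theorem MzsCocycle.neg {c : G → X} (hc : MzsCocycle c) : MzsCocycle (-c) := by
  intro g h
  simp only [Pi.neg_apply, hc g h, smul_neg]
  abel

theorem mzsCocycle_zero : MzsCocycle (0 : G → X) := by
  intro g h
  simp

theorem MzsCocycle.map_one {c : G → X} (hc : MzsCocycle c) : c 1 = 0 := by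
  have h := hc 1 1
  rw [mul_one, one_smul] at h
  exact left_eq_add.mp h

variable (G X) in
/-- a cone-Selmer structure on the `G`-module `X`, relative to the subgroups `Dp ⊇ Ip` -/
structure MzsStr (Dp Ip : Subgroup G) where
  /-- the local subgroup at `p` -/
  Xp : AddSubgroup X
  /-- the Selmer conditions away from `p` -/
  loc : AddSubgroup (G → X)
  /-- the action is smooth -/
  smooth : ∀ x : X, IsLocallyConstant (fun g : G => g • x)
  Xp_fixed : ∀ i ∈ Ip, ∀ x ∈ Xp, i • x = x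
  Xp_stable : ∀ g ∈ Dp, ∀ x ∈ Xp, g • x ∈ Xp
  d_mem_loc : ∀ x : X, mzsD G x ∈ loc

namespace MzsStr

variable {Dp Ip : Subgroup G} (S : MzsStr G X Dp Ip)

include S in
theorem isLocallyConstant_D (x : X) : IsLocallyConstant (mzsD G x) := by
  have h := S.smooth x
  exact (h.prodMk (IsLocallyConstant.const x)).comp (fun q : X × X => q.1 - q.2)

/-- the group of cone-Selmer cocycles `(c, m)` -/
def Z1 : AddSubgroup ((G → X) × X) where
  carrier := {q | IsLocallyConstant q.1 ∧ MzsCocycle q.1 ∧ q.1 ∈ S.loc ∧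
    (∀ i ∈ Ip, q.1 i = i • q.2 - q.2) ∧ ∀ g ∈ Dp, q.1 g - (g • q.2 - q.2) ∈ S.Xp}
  zero_mem' := by
    refine ⟨IsLocallyConstant.const 0, mzsCocycle_zero, S.loc.zero_mem, ?_, ?_⟩
    · intro i _
      simp
    · intro g _
      simp
  add_mem' := by
    rintro a b ⟨ha1, ha2, ha3, ha4, ha5⟩ ⟨hb1, hb2, hb3, hb4, hb5⟩
    refine ⟨ha1.add hb1, ha2.add hb2, S.loc.add_mem ha3 hb3, ?_, ?_⟩
    · intro i hi
      simp only [Prod.fst_add, Pi.add_apply, Prod.snd_add, smul_add, ha4 i hi, hb4 i hi]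
      abel
    · intro g hg
      have h := S.Xp.add_mem (ha5 g hg) (hb5 g hg)
      simp only [Prod.fst_add, Pi.add_apply, Prod.snd_add, smul_add]
      convert h using 1
      abel
  neg_mem' := by
    rintro a ⟨ha1, ha2, ha3, ha4, ha5⟩
    refine ⟨ha1.neg, ha2.neg, S.loc.neg_mem ha3, ?_, ?_⟩
    · intro i hi
      simp only [Prod.fst_neg, Pi.neg_apply, Prod.snd_neg, smul_neg, ha4 i hi]
      abel
    · intro g hg
      have h := S.Xp.neg_mem (ha5 g hg)
      simp only [Prod.fst_neg, Pi.neg_apply, Prod.snd_neg, smul_neg]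
      convert h using 1
      abel

theorem mem_Z1 {q : (G → X) × X} : q ∈ S.Z1 ↔ IsLocallyConstant q.1 ∧ MzsCocycle q.1 ∧
    q.1 ∈ S.loc ∧ (∀ i ∈ Ip, q.1 i = i • q.2 - q.2) ∧
      ∀ g ∈ Dp, q.1 g - (g • q.2 - q.2) ∈ S.Xp := Iff.rfl

/-- the group of cone-Selmer coboundaries `(dx, x - x_p)` -/
def B1 : AddSubgroup ((G → X) × X) where
  carrier := {q | ∃ x : X, ∃ xp ∈ S.Xp, q.1 = mzsD G x ∧ q.2 = x - xp}
  zero_mem' := ⟨0, 0, S.Xp.zero_mem, by simp [mzsD_zero], by simp⟩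
  add_mem' := by
    rintro a b ⟨x, xp, hxp, h1, h2⟩ ⟨y, yp, hyp, h3, h4⟩
    refine ⟨x + y, xp + yp, S.Xp.add_mem hxp hyp, ?_, ?_⟩
    · rw [Prod.fst_add, h1, h3, mzsD_add]
    · rw [Prod.snd_add, h2, h4]
      abel
  neg_mem' := by
    rintro a ⟨x, xp, hxp, h1, h2⟩
    refine ⟨-x, -xp, S.Xp.neg_mem hxp, ?_, ?_⟩
    · rw [Prod.fst_neg, h1, mzsD_neg]
    · rw [Prod.snd_neg, h2]
      abel

theorem mem_B1 {q : (G → X) × X} : q ∈ S.B1 ↔
    ∃ x : X, ∃ xp ∈ S.Xp, q.1 = mzsD G x ∧ q.2 = x - xp := Iff.rfl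

theorem B1_le_Z1 : S.B1 ≤ S.Z1 := by
  rintro ⟨c, m⟩ ⟨x, xp, hxp, h1, h2⟩
  simp only at h1 h2
  subst h1 h2
  refine ⟨S.isLocallyConstant_D x, mzsCocycle_D x, S.d_mem_loc x, ?_, ?_⟩
  · intro i hi
    simp only [mzsD_apply, smul_sub, S.Xp_fixed i hi xp hxp]
    abel
  · intro g hg
    have h := S.Xp.sub_mem (S.Xp_stable g hg xp hxp) hxp
    simp only [mzsD_apply, smul_sub]
    convert h using 1
    abel

/-- **the cone-Selmer group `H̃¹(X)`** -/
abbrev H1 : Type _ := ↥S.Z1 ⧸ (S.B1.addSubgroupOf S.Z1)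

/-- **`H̃⁰(X) = X^G ∩ Xp`** -/
def H0 : AddSubgroup X where
  carrier := {x | (∀ g : G, g • x = x) ∧ x ∈ S.Xp}
  zero_mem' := ⟨fun g => smul_zero g, S.Xp.zero_mem⟩
  add_mem' := by
    rintro a b ⟨ha1, ha2⟩ ⟨hb1, hb2⟩
    exact ⟨fun g => by rw [smul_add, ha1, hb1], S.Xp.add_mem ha2 hb2⟩
  neg_mem' := by
    rintro a ⟨ha1, ha2⟩
    exact ⟨fun g => by rw [smul_neg, ha1], S.Xp.neg_mem ha2⟩

theorem mem_H0 {x : X} : x ∈ S.H0 ↔ (∀ g : G, g • x = x) ∧ x ∈ S.Xp := Iff.rfl

end MzsStr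

end Fermat.Agent.Mazur
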