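/-
MAZUR (Track M), package (S) (helper5), part 4: **the counting form of the dévissage**.

For a cone-Selmer structure `S` on a finite module `X` with a positional subgroup `X0 ≤ X` (the
"connected part at `P`"), `S.Good X0` is the inequality

  `#H̃¹(X) · [X : X0] ≤ #H̃⁰(X) · [X : Xp]`     (i.e. `χ̃(X) ≤ δ(X) - α(X)`).

It is inherited by extensions (`MzsSES.good`), because both indices are multiplicative in short exact
sequences with exact positional data.
-/
import Fermat.Agent.Lib.Mazur.Sel.Count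

set_option autoImplicit false
set_option linter.unusedSectionVars false
set_option linter.style.haveILetI false

namespace Fermat.Agent.Mazur

/-- cardinalities in a short exact sequence of finite abelian groups -/
theorem mzs_card_ses {X' X X'' : Type*} [AddCommGroup X'] [AddCommGroup X] [AddCommGroup X'']
    [Finite X] (f : X' →+ X) (g : X →+ X'') (hf : Function.Injective f)
    (hg : Function.Surjective g) (hex : ∀ x : X, g x = 0 ↔ ∃ x' : X', f x' = x) :
    Nat.card X = Nat.card X' * Nat.card X'' := by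
  have h1 : Nat.card X = Nat.card (X ⧸ g.ker) * Nat.card ↥g.ker :=
    AddSubgroup.card_eq_card_quotient_mul_card_addSubgroup g.ker
  have h2 : Nat.card (X ⧸ g.ker) = Nat.card X'' :=
    Nat.card_congr (QuotientAddGroup.quotientKerEquivOfSurjective g hg).toEquiv
  have h3 : Nat.card ↥g.ker = Nat.card X' := by
    symm
    refine Nat.card_congr (Equiv.ofBijective (fun x' : X' => (⟨f x', ?_⟩ : ↥g.ker)) ⟨?_, ?_⟩)
    · rw [AddMonoidHom.mem_ker]
      exact (hex _).mpr ⟨x', rfl⟩
    · intro a b hab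
      exact hf (congrArg (fun q : ↥g.ker => (q : X)) hab)
    · rintro ⟨x, hx⟩
      obtain ⟨x', rfl⟩ := (hex x).mp (AddMonoidHom.mem_ker.mp hx)
      exact ⟨x', rfl⟩
  rw [h1, h2, h3, mul_comm]

/-- indices of positional subgroups are multiplicative in short exact sequences -/
theorem mzs_index_ses {X' X X'' : Type*} [AddCommGroup X'] [AddCommGroup X] [AddCommGroup X'']
    [Finite X] (f : X' →+ X) (g : X →+ X'') (hf : Function.Injective f)
    (hg : Function.Surjective g) (hex : ∀ x : X, g x = 0 ↔ ∃ x' : X', f x' = x)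
    (A' : AddSubgroup X') (A : AddSubgroup X) (A'' : AddSubgroup X'')
    (h1 : ∀ x' : X', f x' ∈ A ↔ x' ∈ A') (h2 : ∀ x ∈ A, g x ∈ A'')
    (h3 : ∀ y ∈ A'', ∃ x ∈ A, g x = y) : A.index = A'.index * A''.index := by
  haveI : Finite X' := Finite.of_injective f hf
  haveI : Finite X'' := Finite.of_surjective g hg
  -- the restricted sequence
  let fA : ↥A' →+ ↥A :=
    { toFun := fun a => ⟨f (a : X'), (h1 (a : X')).mpr a.2⟩
      map_zero' := Subtype.ext (map_zero f)
      map_add' := fun a b => Subtype.ext (map_add f (a : X') (b : X')) }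
  let gA : ↥A →+ ↥A'' :=
    { toFun := fun a => ⟨g (a : X), h2 (a : X) a.2⟩
      map_zero' := Subtype.ext (map_zero g)
      map_add' := fun a b => Subtype.ext (map_add g (a : X) (b : X)) }
  have hcA : Nat.card ↥A = Nat.card ↥A' * Nat.card ↥A'' := by
    refine mzs_card_ses fA gA ?_ ?_ ?_
    · intro a b hab
      exact Subtype.ext (hf (congrArg (fun q : ↥A => (q : X)) hab))
    · rintro ⟨y, hy⟩
      obtain ⟨x, hx, rfl⟩ := h3 y hy
      exact ⟨⟨x, hx⟩, rfl⟩
    · rintro ⟨x, hx⟩
      constructor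
      · intro h0
        have h0' : g x = 0 := congrArg (fun q : ↥A'' => (q : X'')) h0
        obtain ⟨x', rfl⟩ := (hex x).mp h0'
        exact ⟨⟨x', (h1 x').mp hx⟩, rfl⟩
      · rintro ⟨a, ha⟩
        have ha' : f a = x := congrArg (fun q : ↥A => (q : X)) ha
        exact Subtype.ext ((hex x).mpr ⟨a, ha'⟩)
  have hcX := mzs_card_ses f g hf hg hex
  have e1 := A.index_mul_card
  have e2 := A'.index_mul_card
  have e3 := A''.index_mul_card
  have hpos : 0 < Nat.card ↥A' * Nat.card ↥A'' :=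
    Nat.mul_pos Nat.card_pos Nat.card_pos
  apply Nat.eq_of_mul_eq_mul_right hpos
  calc A.index * (Nat.card ↥A' * Nat.card ↥A'') = A.index * Nat.card ↥A := by rw [hcA]
    _ = Nat.card X := e1
    _ = Nat.card X' * Nat.card X'' := hcX
    _ = (A'.index * Nat.card ↥A') * (A''.index * Nat.card ↥A'') := by rw [e2, e3]
    _ = A'.index * A''.index * (Nat.card ↥A' * Nat.card ↥A'') := by ring

variable {G : Type*} [Group G] [TopologicalSpace G]
variable {X' X X'' : Type*} [AddCommGroup X'] [DistribMulAction G X'] [AddCommGroup X]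
  [DistribMulAction G X] [AddCommGroup X''] [DistribMulAction G X'']

/-- **the numerical criterion** `#H̃¹ · [X : X0] ≤ #H̃⁰ · [X : Xp]` (with `H̃¹` finite) -/
def MzsStr.Good {Dp Ip : Subgroup G} (S : MzsStr G X Dp Ip) (X0 : AddSubgroup X) : Prop :=
  Finite S.H1 ∧ Nat.card S.H1 * X0.index ≤ Nat.card ↥S.H0 * S.Xp.index

namespace MzsSES

variable {Dp Ip : Subgroup G} {S' : MzsStr G X' Dp Ip} {S : MzsStr G X Dp Ip}
  {S'' : MzsStr G X'' Dp Ip} (E : MzsSES S' S S'')

include E in
/-- **the numerical criterion is inherited by extensions** -/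
theorem good [Finite X] {X0' : AddSubgroup X'} {X0 : AddSubgroup X} {X0'' : AddSubgroup X''}
    (h1 : ∀ x' : X', E.f x' ∈ X0 ↔ x' ∈ X0') (h2 : ∀ x ∈ X0, E.g x ∈ X0'')
    (h3 : ∀ y ∈ X0'', ∃ x ∈ X0, E.g x = y) (hG' : S'.Good X0') (hG'' : S''.Good X0'') :
    S.Good X0 := by
  haveI : Finite X'' := Finite.of_surjective E.g E.g_surj
  haveI : Finite X' := Finite.of_injective E.f E.f_inj
  obtain ⟨hf', hc'⟩ := hG'
  obtain ⟨hf'', hc''⟩ := hG''
  refine ⟨E.finite_H1, ?_⟩
  have hcard := E.card_le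
  have hi0 := mzs_index_ses E.f E.g E.f_inj E.g_surj E.exact X0' X0 X0'' h1 h2 h3
  have hip := mzs_index_ses E.f E.g E.f_inj E.g_surj E.exact S'.Xp S.Xp S''.Xp E.Xp_f E.Xp_g
    E.Xp_g_surj
  have hpos : 0 < Nat.card ↥S'.H0 * Nat.card ↥S''.H0 := Nat.mul_pos Nat.card_pos Nat.card_pos
  apply Nat.le_of_mul_le_mul_right _ hpos
  calc Nat.card S.H1 * X0.index * (Nat.card ↥S'.H0 * Nat.card ↥S''.H0)
      = (Nat.card S.H1 * Nat.card ↥S'.H0 * Nat.card ↥S''.H0) * (X0'.index * X0''.index) := by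
        rw [hi0]; ring
    _ ≤ (Nat.card S'.H1 * Nat.card S''.H1 * Nat.card ↥S.H0) * (X0'.index * X0''.index) :=
        Nat.mul_le_mul_right _ hcard
    _ = (Nat.card S'.H1 * X0'.index) * (Nat.card S''.H1 * X0''.index) * Nat.card ↥S.H0 := by ring
    _ ≤ (Nat.card ↥S'.H0 * S'.Xp.index) * (Nat.card ↥S''.H0 * S''.Xp.index) *
          Nat.card ↥S.H0 := by gcongr
    _ = Nat.card ↥S.H0 * S.Xp.index * (Nat.card ↥S'.H0 * Nat.card ↥S''.H0) := by
        rw [hip]; ring

end MzsSES

end Fermat.Agent.Mazur
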