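/-
MAZUR (Track M), package (S) (helper5), part 6: **the concrete objects over `G_ℚ`**.

* `MzsUnitKummer 𝔓 u` : `u` restricted to the inertia group of the place `𝔓` of `ℚ̄` is the Kummer
  cocycle `i ↦ i β / β` of a `𝔓`-unit `β` of `ℚ̄` ("peu ramifié");
* `MzsObj 𝔭 𝔓 X` : a `G_ℚ`-module `X` with positional data `Xp` (at the level prime, place `𝔭`) and
  `X0` (connected part at the place `𝔓`), unramified outside `𝔭, 𝔓`, ordinary and peu ramifié at `𝔓`;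
* `MzsObj.loc`, `MzsObj.str` : its Selmer conditions and cone-Selmer structure;
* `mzs_addChar_extend` : characters of a subgroup of a finite abelian group extend.
-/
import Fermat.Agent.Lib.Mazur.Sel.Good
import Fermat.Agent.Lib.TW.Flat.Base

set_option autoImplicit false
set_option linter.unusedSectionVars false
set_option linter.style.haveILetI false

namespace Fermat.Agent.Mazur

open Fermat.Agent.TW Fermat.Agent.S05Lib

local notation "Qb" => AlgebraicClosure ℚ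
local notation "GQ" => (AlgebraicClosure ℚ ≃ₐ[ℚ] AlgebraicClosure ℚ)

/-- `u` restricted to the inertia group of `𝔓` is the Kummer cocycle of a `𝔓`-unit of `ℚ̄` -/
def MzsUnitKummer (𝔓 : FFPlace) (u : GQ → Qb) : Prop :=
  ∃ β : Qb, 𝔓.v.Is β 0 ∧ ∀ i ∈ 𝔓.I, u i = i β / β

theorem mzsUnitKummer_one (𝔓 : FFPlace) : MzsUnitKummer 𝔓 (fun _ => 1) :=
  ⟨1, 𝔓.v.is_one, fun i _ => by rw [map_one, div_one]⟩

theorem MzsUnitKummer.mul {𝔓 : FFPlace} {u u' : GQ → Qb} (h : MzsUnitKummer 𝔓 u)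
    (h' : MzsUnitKummer 𝔓 u') : MzsUnitKummer 𝔓 (fun g => u g * u' g) := by
  obtain ⟨β, hβ, hu⟩ := h
  obtain ⟨β', hβ', hu'⟩ := h'
  refine ⟨β * β', by simpa using hβ.mul hβ', fun i hi => ?_⟩
  show u i * u' i = _
  rw [hu i hi, hu' i hi, map_mul, mul_div_mul_comm]

theorem MzsUnitKummer.inv {𝔓 : FFPlace} {u : GQ → Qb} (h : MzsUnitKummer 𝔓 u) :
    MzsUnitKummer 𝔓 (fun g => (u g)⁻¹) := by
  obtain ⟨β, hβ, hu⟩ := h
  refine ⟨β⁻¹, by simpa using hβ.inv, fun i hi => ?_⟩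
  show (u i)⁻¹ = _
  rw [hu i hi, map_inv₀, inv_div_inv, inv_div]

theorem MzsUnitKummer.congr {𝔓 : FFPlace} {u u' : GQ → Qb} (h : MzsUnitKummer 𝔓 u)
    (huu' : ∀ i ∈ 𝔓.I, u' i = u i) : MzsUnitKummer 𝔓 u' := by
  obtain ⟨β, hβ, hu⟩ := h
  exact ⟨β, hβ, fun i hi => by rw [huu' i hi, hu i hi]⟩

/-- characters of a subgroup of a finite abelian group extend to the whole group -/
theorem mzs_addChar_extend {X : Type*} [AddCommGroup X] [Finite X] (F : AddSubgroup X)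
    (χ' : AddChar ↥F Qb) : ∃ χ : AddChar X Qb, ∀ x : ↥F, χ (x : X) = χ' x := by
  haveI : NeZero (Monoid.exponent (Multiplicative X)) :=
    ⟨Monoid.exponent_ne_zero_of_finite⟩
  let H : Subgroup (Multiplicative X) := AddSubgroup.toSubgroup F
  let φ' : ↥H →* Qbˣ :=
    MonoidHom.toHomUnits
      { toFun := fun h => χ' ⟨Multiplicative.toAdd (h : Multiplicative X), h.2⟩
        map_one' := χ'.map_zero_eq_one
        map_mul' := fun a b => χ'.map_add_eq_mul _ _ }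
  obtain ⟨φ, hφ⟩ := MonoidHom.domRestrict_surjective (M := Qb) H φ'
  refine ⟨AddChar.toMonoidHomEquiv.symm ((Units.coeHom Qb).comp φ), fun x => ?_⟩
  rw [AddChar.toMonoidHomEquiv_symm_apply]
  have h1 := DFunLike.congr_fun hφ (⟨Multiplicative.ofAdd (x : X), x.2⟩ : ↥H)
  have h2 : φ (Multiplicative.ofAdd (x : X)) = φ' ⟨Multiplicative.ofAdd (x : X), x.2⟩ := h1
  show ((φ (Multiplicative.ofAdd (x : X)) : Qbˣ) : Qb) = χ' x
  rw [h2]
  rfl

variable (𝔭 𝔓 : FFPlace) (X : Type*) [AddCommGroup X] [DistribMulAction GQ X]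

/-- a concrete object: a `G_ℚ`-module with positional data at the level prime (`𝔭`) and at `𝔓` -/
structure MzsObj where
  /-- the local subgroup at the level prime (image of the inertia invariants) -/
  Xp : AddSubgroup X
  /-- the connected part at `𝔓` -/
  X0 : AddSubgroup X
  smooth : ∀ x : X, IsLocallyConstant (fun g : GQ => g • x)
  Xp_fixed : ∀ i ∈ 𝔭.I, ∀ x ∈ Xp, i • x = x
  Xp_stable : ∀ g ∈ 𝔭.D, ∀ x ∈ Xp, g • x ∈ Xp
  /-- unramified outside the two places -/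
  unr : ∀ 𝔩 : FFPlace, 𝔩.p ≠ 𝔭.p → 𝔩.p ≠ 𝔓.p → ∀ i ∈ 𝔩.I, ∀ x : X, i • x = x
  /-- the inertia group at `𝔓` acts trivially on `X / X0` -/
  ord : ∀ i ∈ 𝔓.I, ∀ x : X, i • x - x ∈ X0
  /-- the inertia group at `𝔓` acts on `X0` through the cyclotomic character -/
  cyc : ∀ i ∈ 𝔓.I, ∃ e : ℕ, (∀ x ∈ X0, i • x = e • x) ∧
    ∀ ζ : Qb, ζ ^ Nat.card X = 1 → i ζ = ζ ^ e
  /-- `X` is peu ramifié at `𝔓` -/
  peu : ∀ (x : X) (χ : AddChar X Qb), MzsUnitKummer 𝔓 (fun g => χ (g • x - x))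

variable {𝔭 𝔓 X}

namespace MzsObj

variable (O : MzsObj 𝔭 𝔓 X)

/-- the Selmer conditions away from `𝔭`: unramified outside `𝔭, 𝔓`; ordinary and peu ramifié at
`𝔓` -/
def loc : AddSubgroup (GQ → X) where
  carrier := {c | (∀ 𝔩 : FFPlace, 𝔩.p ≠ 𝔭.p → 𝔩.p ≠ 𝔓.p → ∀ i ∈ 𝔩.I, c i = 0) ∧
    (∀ i ∈ 𝔓.I, c i ∈ O.X0) ∧ ∀ χ : AddChar X Qb, MzsUnitKummer 𝔓 (fun g => χ (c g))}
  zero_mem' := by
    refine ⟨fun _ _ _ _ _ => rfl, fun _ _ => O.X0.zero_mem, fun χ => ?_⟩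
    simp only [Pi.zero_apply, AddChar.map_zero_eq_one]
    exact mzsUnitKummer_one 𝔓
  add_mem' := by
    rintro c c' ⟨h1, h2, h3⟩ ⟨h1', h2', h3'⟩
    refine ⟨fun 𝔩 hp hP i hi => ?_, fun i hi => ?_, fun χ => ?_⟩
    · rw [Pi.add_apply, h1 𝔩 hp hP i hi, h1' 𝔩 hp hP i hi, add_zero]
    · exact O.X0.add_mem (h2 i hi) (h2' i hi)
    · simp only [Pi.add_apply, AddChar.map_add_eq_mul]
      exact (h3 χ).mul (h3' χ)
  neg_mem' := by
    rintro c ⟨h1, h2, h3⟩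
    refine ⟨fun 𝔩 hp hP i hi => ?_, fun i hi => ?_, fun χ => ?_⟩
    · rw [Pi.neg_apply, h1 𝔩 hp hP i hi, neg_zero]
    · exact O.X0.neg_mem (h2 i hi)
    · simp only [Pi.neg_apply, AddChar.map_neg_eq_inv]
      exact (h3 χ).inv

theorem mem_loc {c : GQ → X} : c ∈ O.loc ↔
    (∀ 𝔩 : FFPlace, 𝔩.p ≠ 𝔭.p → 𝔩.p ≠ 𝔓.p → ∀ i ∈ 𝔩.I, c i = 0) ∧
    (∀ i ∈ 𝔓.I, c i ∈ O.X0) ∧ ∀ χ : AddChar X Qb, MzsUnitKummer 𝔓 (fun g => χ (c g)) := Iff.rfl

/-- the cone-Selmer structure of a concrete object -/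
def str : MzsStr GQ X 𝔭.D 𝔭.I where
  Xp := O.Xp
  loc := O.loc
  smooth := O.smooth
  Xp_fixed := O.Xp_fixed
  Xp_stable := O.Xp_stable
  d_mem_loc := by
    intro x
    refine ⟨fun 𝔩 hp hP i hi => ?_, fun i hi => O.ord i hi x, fun χ => O.peu x χ⟩
    rw [mzsD_apply, O.unr 𝔩 hp hP i hi x, sub_self]

@[simp] theorem str_Xp : O.str.Xp = O.Xp := rfl

@[simp] theorem str_loc : O.str.loc = O.loc := rfl

end MzsObj

end Fermat.Agent.Mazur
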