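/-
MAZUR (Track M), package (S) (helper5), part 10: **sub- and quotient objects**.

For a `G_ℚ`-stable subgroup `F` of a concrete object `X` (`MzsObj`), the subgroup `MzsSub F hF` and the
quotient `MzsQuot F hF` are again concrete objects (`MzsObj.sub`, `MzsObj.quot`, positional data
`X' ∩ Xp`, `X' ∩ X0` resp. the images), and `0 → F → X → X/F → 0` is a short exact sequence of
cone-Selmer structures (`MzsObj.ses`).  The local condition at `𝔓` is inherited because characters of
finite abelian groups extend (`mzs_addChar_extend`).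
-/
import Fermat.Agent.Lib.Mazur.Sel.Obj

set_option autoImplicit false
set_option linter.unusedSectionVars false
set_option linter.style.haveILetI false

namespace Fermat.Agent.Mazur

open Fermat.Agent.TW Fermat.Agent.S05Lib

local notation "Qb" => AlgebraicClosure ℚ
local notation "GQ" => (AlgebraicClosure ℚ ≃ₐ[ℚ] AlgebraicClosure ℚ)

noncomputable section

variable {X : Type*} [AddCommGroup X] [DistribMulAction GQ X]

/-- a `G_ℚ`-stable subgroup, as a `G_ℚ`-module -/
def MzsSub (F : AddSubgroup X) (_hF : ∀ (g : GQ), ∀ x ∈ F, g • x ∈ F) : Type _ := ↥F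

/-- the quotient by a `G_ℚ`-stable subgroup, as a `G_ℚ`-module -/
def MzsQuot (F : AddSubgroup X) (_hF : ∀ (g : GQ), ∀ x ∈ F, g • x ∈ F) : Type _ := X ⧸ F

section Instances

variable (F : AddSubgroup X) (hF : ∀ (g : GQ), ∀ x ∈ F, g • x ∈ F)

instance : AddCommGroup (MzsSub F hF) := inferInstanceAs (AddCommGroup ↥F)

instance : AddCommGroup (MzsQuot F hF) := inferInstanceAs (AddCommGroup (X ⧸ F))

instance [Finite X] : Finite (MzsSub F hF) := inferInstanceAs (Finite ↥F)

instance [Finite X] : Finite (MzsQuot F hF) := inferInstanceAs (Finite (X ⧸ F))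

/-- the inclusion -/
def mzsSubVal : MzsSub F hF →+ X := F.subtype

/-- the projection -/
def mzsQuotMk : X →+ MzsQuot F hF := QuotientAddGroup.mk' F

theorem mzsSubVal_injective : Function.Injective (mzsSubVal F hF) := F.subtype_injective

theorem mzsQuotMk_surjective : Function.Surjective (mzsQuotMk F hF) :=
  QuotientAddGroup.mk'_surjective F

theorem mzsSubVal_mem (x : MzsSub F hF) : mzsSubVal F hF x ∈ F := x.2

theorem mzsQuotMk_eq_zero_iff (x : X) : mzsQuotMk F hF x = 0 ↔ x ∈ F :=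
  QuotientAddGroup.eq_zero_iff x

theorem mzsQuotMk_eq_iff (x y : X) : mzsQuotMk F hF x = mzsQuotMk F hF y ↔ x - y ∈ F := by
  rw [← sub_eq_zero, ← map_sub, mzsQuotMk_eq_zero_iff]

/-- the action on a stable subgroup -/
@[instance_reducible] def mzsSubAction : DistribMulAction GQ ↥F where
  smul g x := ⟨g • (x : X), hF g x x.2⟩
  one_smul x := Subtype.ext (one_smul GQ (x : X))
  mul_smul g h x := Subtype.ext (mul_smul g h (x : X))
  smul_zero g := Subtype.ext (smul_zero g)
  smul_add g x y := Subtype.ext (smul_add g (x : X) (y : X))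

instance : DistribMulAction GQ (MzsSub F hF) := mzsSubAction F hF

theorem mzsSubVal_smul (g : GQ) (x : MzsSub F hF) :
    mzsSubVal F hF (g • x) = g • mzsSubVal F hF x := rfl

/-- the action of one element on the quotient -/
def mzsQuotSmul (g : GQ) : MzsQuot F hF →+ MzsQuot F hF :=
  QuotientAddGroup.map F F (DistribSMul.toAddMonoidHom X g) (fun x hx => hF g x hx)

theorem mzsQuotSmul_mk (g : GQ) (x : X) :
    mzsQuotSmul F hF g (mzsQuotMk F hF x) = mzsQuotMk F hF (g • x) := rfl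

instance : DistribMulAction GQ (MzsQuot F hF) where
  smul g y := mzsQuotSmul F hF g y
  one_smul y := by
    obtain ⟨x, rfl⟩ := mzsQuotMk_surjective F hF y
    show mzsQuotSmul F hF 1 (mzsQuotMk F hF x) = _
    rw [mzsQuotSmul_mk, one_smul]
  mul_smul g h y := by
    obtain ⟨x, rfl⟩ := mzsQuotMk_surjective F hF y
    show mzsQuotSmul F hF (g * h) (mzsQuotMk F hF x) =
      mzsQuotSmul F hF g (mzsQuotSmul F hF h (mzsQuotMk F hF x))
    rw [mzsQuotSmul_mk, mzsQuotSmul_mk, mzsQuotSmul_mk, mul_smul]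
  smul_zero g := map_zero (mzsQuotSmul F hF g)
  smul_add g x y := map_add (mzsQuotSmul F hF g) x y

theorem mzsQuotMk_smul (g : GQ) (x : X) :
    mzsQuotMk F hF (g • x) = g • mzsQuotMk F hF x := rfl

end Instances

variable {𝔭 𝔓 : FFPlace}

namespace MzsObj

variable (O : MzsObj 𝔭 𝔓 X) (F : AddSubgroup X) (hF : ∀ (g : GQ), ∀ x ∈ F, g • x ∈ F)

/-- the restriction of an object to a stable subgroup -/
def sub [Finite X] : MzsObj 𝔭 𝔓 (MzsSub F hF) where
  Xp := O.Xp.comap (mzsSubVal F hF)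
  X0 := O.X0.comap (mzsSubVal F hF)
  smooth := by
    intro x
    have h := O.smooth (mzsSubVal F hF x)
    rw [IsLocallyConstant.iff_exists_open] at h ⊢
    intro g
    obtain ⟨U, hU, hg, hconst⟩ := h g
    refine ⟨U, hU, hg, fun g' hg' => mzsSubVal_injective F hF ?_⟩
    rw [mzsSubVal_smul, mzsSubVal_smul]
    exact hconst g' hg'
  Xp_fixed := by
    intro i hi x hx
    apply mzsSubVal_injective F hF
    rw [mzsSubVal_smul]
    exact O.Xp_fixed i hi _ hx
  Xp_stable := by
    intro g hg x hx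
    show mzsSubVal F hF (g • x) ∈ O.Xp
    rw [mzsSubVal_smul]
    exact O.Xp_stable g hg _ hx
  unr := by
    intro 𝔩 hp hP i hi x
    apply mzsSubVal_injective F hF
    rw [mzsSubVal_smul]
    exact O.unr 𝔩 hp hP i hi _
  ord := by
    intro i hi x
    show mzsSubVal F hF (i • x - x) ∈ O.X0
    rw [map_sub, mzsSubVal_smul]
    exact O.ord i hi _
  cyc := by
    intro i hi
    obtain ⟨e, he1, he2⟩ := O.cyc i hi
    refine ⟨e, fun x hx => ?_, fun ζ hζ => he2 ζ ?_⟩
    · apply mzsSubVal_injective F hF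
      rw [mzsSubVal_smul, map_nsmul]
      exact he1 _ hx
    · have hdvd : Nat.card (MzsSub F hF) ∣ Nat.card X := F.card_addSubgroup_dvd_card
      obtain ⟨k, hk⟩ := hdvd
      rw [hk, pow_mul, hζ, one_pow]
  peu := by
    intro x χ
    obtain ⟨χ', hχ'⟩ := mzs_addChar_extend F χ
    refine (O.peu (mzsSubVal F hF x) χ').congr (fun i _ => ?_)
    show χ (i • x - x) = χ' (i • mzsSubVal F hF x - mzsSubVal F hF x)
    rw [← mzsSubVal_smul, ← map_sub]
    exact (hχ' (i • x - x)).symm

/-- the quotient of an object by a stable subgroup -/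
def quot [Finite X] : MzsObj 𝔭 𝔓 (MzsQuot F hF) where
  Xp := O.Xp.map (mzsQuotMk F hF)
  X0 := O.X0.map (mzsQuotMk F hF)
  smooth := by
    intro y
    obtain ⟨x, rfl⟩ := mzsQuotMk_surjective F hF y
    have h := O.smooth x
    rw [IsLocallyConstant.iff_exists_open] at h ⊢
    intro g
    obtain ⟨U, hU, hg, hconst⟩ := h g
    refine ⟨U, hU, hg, fun g' hg' => ?_⟩
    rw [← mzsQuotMk_smul, ← mzsQuotMk_smul, hconst g' hg']
  Xp_fixed := by
    rintro i hi _ ⟨x, hx, rfl⟩
    rw [← mzsQuotMk_smul, O.Xp_fixed i hi x hx]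
  Xp_stable := by
    rintro g hg _ ⟨x, hx, rfl⟩
    exact ⟨g • x, O.Xp_stable g hg x hx, mzsQuotMk_smul F hF g x⟩
  unr := by
    intro 𝔩 hp hP i hi y
    obtain ⟨x, rfl⟩ := mzsQuotMk_surjective F hF y
    rw [← mzsQuotMk_smul, O.unr 𝔩 hp hP i hi x]
  ord := by
    intro i hi y
    obtain ⟨x, rfl⟩ := mzsQuotMk_surjective F hF y
    exact ⟨i • x - x, O.ord i hi x, by rw [map_sub, mzsQuotMk_smul]⟩
  cyc := by
    intro i hi
    obtain ⟨e, he1, he2⟩ := O.cyc i hi
    refine ⟨e, ?_, fun ζ hζ => he2 ζ ?_⟩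
    · rintro _ ⟨x, hx, rfl⟩
      rw [← mzsQuotMk_smul, he1 x hx, map_nsmul]
    · have hdvd : Nat.card (MzsQuot F hF) ∣ Nat.card X := F.card_quotient_dvd_card
      obtain ⟨k, hk⟩ := hdvd
      rw [hk, pow_mul, hζ, one_pow]
  peu := by
    intro y χ
    obtain ⟨x, rfl⟩ := mzsQuotMk_surjective F hF y
    refine (O.peu x (χ.compAddMonoidHom (mzsQuotMk F hF))).congr (fun i _ => ?_)
    show χ (i • mzsQuotMk F hF x - mzsQuotMk F hF x) = χ (mzsQuotMk F hF (i • x - x))
    congr 1

@[simp] theorem sub_Xp [Finite X] : (O.sub F hF).Xp = O.Xp.comap (mzsSubVal F hF) := rfl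

@[simp] theorem sub_X0 [Finite X] : (O.sub F hF).X0 = O.X0.comap (mzsSubVal F hF) := rfl

@[simp] theorem quot_Xp [Finite X] : (O.quot F hF).Xp = O.Xp.map (mzsQuotMk F hF) := rfl

@[simp] theorem quot_X0 [Finite X] : (O.quot F hF).X0 = O.X0.map (mzsQuotMk F hF) := rfl

/-- the short exact sequence `0 → F → X → X / F → 0` of cone-Selmer structures -/
def ses [Finite X] : MzsSES (O.sub F hF).str O.str (O.quot F hF).str where
  f := mzsSubVal F hF
  g := mzsQuotMk F hF
  f_smul := mzsSubVal_smul F hF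
  g_smul := mzsQuotMk_smul F hF
  f_inj := mzsSubVal_injective F hF
  g_surj := mzsQuotMk_surjective F hF
  exact := by
    intro x
    rw [mzsQuotMk_eq_zero_iff]
    exact ⟨fun hx => ⟨⟨x, hx⟩, rfl⟩, fun ⟨x', hx'⟩ => hx' ▸ mzsSubVal_mem F hF x'⟩
  Xp_f := fun _ => Iff.rfl
  Xp_g := fun x hx => ⟨x, hx, rfl⟩
  Xp_g_surj := fun _ hy => hy
  loc_f := by
    intro c'
    constructor
    · rintro ⟨h1, h2, h3⟩
      refine ⟨fun 𝔩 hp hP i hi => ?_, fun i hi => h2 i hi, fun χ => ?_⟩
      · apply mzsSubVal_injective F hF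
        rw [map_zero]
        exact h1 𝔩 hp hP i hi
      · obtain ⟨χ', hχ'⟩ := mzs_addChar_extend F χ
        exact (h3 χ').congr (fun i _ => (hχ' (c' i)).symm)
    · rintro ⟨h1, h2, h3⟩
      refine ⟨fun 𝔩 hp hP i hi => ?_, fun i hi => h2 i hi, fun χ => ?_⟩
      · show mzsSubVal F hF (c' i) = 0
        rw [h1 𝔩 hp hP i hi, map_zero]
      · exact h3 (χ.compAddMonoidHom (mzsSubVal F hF))
  loc_g := by
    rintro c ⟨h1, h2, h3⟩
    refine ⟨fun 𝔩 hp hP i hi => ?_, fun i hi => ⟨c i, h2 i hi, rfl⟩, fun χ => ?_⟩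
    · show mzsQuotMk F hF (c i) = 0
      rw [h1 𝔩 hp hP i hi, map_zero]
    · exact h3 (χ.compAddMonoidHom (mzsQuotMk F hF))

end MzsObj

end

end Fermat.Agent.Mazur
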