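/-
MAZUR (Track M), package (S) (helper5), part 5: **Hilbert 90 for `ℚ̄ / ℚ`**.

A multiplicative 1-cocycle `u : G_ℚ → ℚ̄ˣ` which is locally constant at `1` is a coboundary:
`u g = g γ / γ` (`mzs_hilbert90`).  Proof: Poincaré series over the finitely many embeddings of a
finite subextension `E` with `u = 1` on `Gal(ℚ̄/E)`, and Dedekind's independence of characters.
-/
import Mathlib

set_option autoImplicit false
set_option linter.unusedSectionVars false
set_option linter.style.haveILetI false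

namespace Fermat.Agent.Mazur

local notation "Qb" => AlgebraicClosure ℚ
local notation "GQ" => (AlgebraicClosure ℚ ≃ₐ[ℚ] AlgebraicClosure ℚ)

/-- `ℚ̄ / ℚ` is normal, for the `ℚ`-algebra structure found by instance search -/
theorem mzs_normal_qbar : Normal ℚ Qb := by
  have h : (DivisionRing.toRatAlgebra : Algebra ℚ Qb) = AlgebraicClosure.instAlgebra ℚ :=
    Subsingleton.elim _ _
  rw [h]
  let _ : Algebra ℚ Qb := AlgebraicClosure.instAlgebra ℚ
  exact IsAlgClosure.normal ℚ Qb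

/-- `ℚ̄ / ℚ` is Galois, for the `ℚ`-algebra structure found by instance search -/
theorem mzs_isGalois_qbar : IsGalois ℚ Qb := by
  have h : (DivisionRing.toRatAlgebra : Algebra ℚ Qb) = AlgebraicClosure.instAlgebra ℚ :=
    Subsingleton.elim _ _
  rw [h]
  letI : Algebra ℚ Qb := AlgebraicClosure.instAlgebra ℚ
  haveI : Normal ℚ Qb := IsAlgClosure.normal ℚ Qb
  exact ⟨⟩

/-- the fixed field of `G_ℚ` is `ℚ` -/
theorem mzs_mem_range_of_fixed (x : Qb) (hx : ∀ σ : GQ, σ x = x) :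
    ∃ q : ℚ, algebraMap ℚ Qb q = x := by
  haveI := mzs_isGalois_qbar
  exact (InfiniteGalois.mem_range_algebraMap_iff_fixed x).mpr hx

/-- every embedding of a subfield of `ℚ̄` into `ℚ̄` is induced by an element of `G_ℚ` -/
theorem mzs_exists_lift (E : IntermediateField ℚ Qb) (φ : ↥E →ₐ[ℚ] Qb) :
    ∃ τ : GQ, ∀ x : ↥E, τ (x : Qb) = φ x := by
  haveI : Normal ℚ Qb := mzs_normal_qbar
  let σ₀ : Qb →ₐ[ℚ] Qb := φ.liftNormal Qb
  let σ : GQ := AlgEquiv.ofBijective σ₀ (AlgHom.normal_bijective ℚ Qb Qb σ₀)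
  refine ⟨σ, fun x => ?_⟩
  exact φ.liftNormal_commutes Qb x

/-- **Hilbert 90 for `ℚ̄/ℚ`**: a 1-cocycle with values in `ℚ̄ˣ`, equal to `1` near the identity, is a
coboundary -/
theorem mzs_hilbert90 (u : GQ → Qb) (hu0 : ∀ g, u g ≠ 0)
    (hopen : {g : GQ | u g = 1} ∈ nhds (1 : GQ))
    (hcoc : ∀ g h : GQ, u (g * h) = u g * g (u h)) :
    ∃ γ : Qb, γ ≠ 0 ∧ ∀ g : GQ, u g = g γ / γ := by
  classical
  obtain ⟨E, hEfin, hE⟩ := (krullTopology_mem_nhds_one_iff ℚ Qb _).mp hopen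
  haveI := hEfin
  -- the restriction of `τ` to `E`
  let res : GQ → (↥E →ₐ[ℚ] Qb) := fun τ => (τ : Qb →ₐ[ℚ] Qb).comp E.val
  have hres : ∀ (τ : GQ) (x : ↥E), res τ x = τ (x : Qb) := fun τ x => rfl
  -- `u` only depends on the restriction to `E`
  have hkey : ∀ τ τ' : GQ, res τ = res τ' → u τ = u τ' := by
    intro τ τ' h
    have hn : τ'⁻¹ * τ ∈ E.fixingSubgroup := by
      rw [IntermediateField.mem_fixingSubgroup_iff]
      intro x hx
      have h1 : τ x = τ' x := by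
        have := DFunLike.congr_fun h (⟨x, hx⟩ : ↥E)
        simpa [hres] using this
      show (τ'⁻¹ * τ) x = x
      rw [AlgEquiv.mul_apply, h1]
      exact τ'.symm_apply_apply x
    have h1 : u (τ'⁻¹ * τ) = 1 := hE hn
    have h2 : τ = τ' * (τ'⁻¹ * τ) := by group
    rw [h2, hcoc, h1, map_one, mul_one]
  choose lift hlift using fun φ : ↥E →ₐ[ℚ] Qb => mzs_exists_lift E φ
  have hreslift : ∀ φ, res (lift φ) = φ := by
    intro φ
    ext x
    rw [hres, hlift]
  let ut : (↥E →ₐ[ℚ] Qb) → Qb := fun φ => u (lift φ)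
  have hut : ∀ τ : GQ, u τ = ut (res τ) := fun τ => hkey _ _ (hreslift _).symm
  -- Dedekind independence
  have hli : LinearIndependent Qb (fun φ : ↥E →ₐ[ℚ] Qb => ((φ : ↥E →* Qb) : ↥E → Qb)) := by
    refine (linearIndependent_monoidHom ↥E Qb).comp
      (fun φ : ↥E →ₐ[ℚ] Qb => ((φ : ↥E →+* Qb) : ↥E →* Qb)) ?_
    intro φ ψ h
    ext x
    exact DFunLike.congr_fun h x
  haveI : Fintype (↥E →ₐ[ℚ] Qb) := Fintype.ofFinite _
  obtain ⟨θ, hθ⟩ : ∃ θ : ↥E, ∑ φ : ↥E →ₐ[ℚ] Qb, ut φ * φ θ ≠ 0 := by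
    by_contra hcon
    rw [not_exists] at hcon
    simp only [not_not] at hcon
    have hzero : ∑ φ : ↥E →ₐ[ℚ] Qb, ut φ • ((φ : ↥E →* Qb) : ↥E → Qb) = 0 := by
      funext θ
      rw [Finset.sum_apply, Pi.zero_apply, ← hcon θ]
      rfl
    have h0 := (Fintype.linearIndependent_iff.mp hli) ut hzero (res 1)
    exact hu0 _ h0
  set b : Qb := ∑ φ : ↥E →ₐ[ℚ] Qb, ut φ * φ θ with hb
  -- the action of `g` on the Poincaré series
  have hact : ∀ g : GQ, u g * g b = b := by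
    intro g
    let eg : (↥E →ₐ[ℚ] Qb) ≃ (↥E →ₐ[ℚ] Qb) :=
      { toFun := fun φ => (g : Qb →ₐ[ℚ] Qb).comp φ
        invFun := fun φ => ((g⁻¹ : GQ) : Qb →ₐ[ℚ] Qb).comp φ
        left_inv := by
          intro φ
          ext x
          show (g⁻¹ : GQ) (g (φ x)) = φ x
          rw [← AlgEquiv.mul_apply, inv_mul_cancel, AlgEquiv.one_apply]
        right_inv := by
          intro φ
          ext x
          show g ((g⁻¹ : GQ) (φ x)) = φ x
          rw [← AlgEquiv.mul_apply, mul_inv_cancel, AlgEquiv.one_apply] }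
    have h1 : ∀ φ : ↥E →ₐ[ℚ] Qb, ut (eg φ) = u g * g (ut φ) := by
      intro φ
      have h2 : res (g * lift φ) = eg φ := by
        ext x
        rw [hres]
        show g (lift φ (x : Qb)) = g (φ x)
        rw [hlift]
      rw [← h2, ← hut, hcoc]
    have h3 : ∑ φ : ↥E →ₐ[ℚ] Qb, ut φ * φ θ = ∑ φ : ↥E →ₐ[ℚ] Qb, ut (eg φ) * (eg φ) θ :=
      (Equiv.sum_comp eg (fun ψ : ↥E →ₐ[ℚ] Qb => ut ψ * ψ θ)).symm
    rw [hb, map_sum, Finset.mul_sum, h3]
    refine Finset.sum_congr rfl fun φ _ => ?_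
    rw [h1, map_mul]
    show u g * (g (ut φ) * g (φ θ)) = u g * g (ut φ) * g (φ θ)
    ring
  refine ⟨b⁻¹, inv_ne_zero hθ, fun g => ?_⟩
  have hgb : g b ≠ 0 := (map_ne_zero_iff g g.injective).mpr hθ
  rw [map_inv₀, inv_div_inv, eq_div_iff hgb]
  exact hact g

end Fermat.Agent.Mazur
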