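/-
MAZUR (Track M), package (S) (helper5), part 8: **arithmetic of `ℚ` seen from the places of `ℚ̄`**.

* `mzs_ord_natCast` : `v_𝔩(n) = ` exponent of `𝔩.p` in `n`;
* `mzs_nat_eq_pow`, `mzs_rat_eq_pow` : a nonzero rational number all of whose valuations (at one place
  of `ℚ̄` over each prime) are divisible by `P` is `± s ^ P`.
-/
import Fermat.Agent.Lib.TW.Flat.Place
import Fermat.Agent.Lib.TW.Flat.BaseRing

set_option autoImplicit false
set_option linter.unusedSectionVars false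
set_option linter.style.haveILetI false

namespace Fermat.Agent.Mazur

open Fermat.Agent.TW Fermat.Agent.S05Lib

local notation "Qb" => AlgebraicClosure ℚ
local notation "GQ" => (AlgebraicClosure ℚ ≃ₐ[ℚ] AlgebraicClosure ℚ)

/-- the valuation of a natural number at a place of `ℚ̄` -/
theorem mzs_ord_natCast (𝔩 : FFPlace) {n : ℕ} (hn : n ≠ 0) :
    𝔩.v.ord (n : Qb) = (n.factorization 𝔩.p : ℚ) := by
  have h := Nat.ordProj_mul_ordCompl_eq_self n 𝔩.p
  have hm : ¬ 𝔩.p ∣ n / 𝔩.p ^ n.factorization 𝔩.p := Nat.not_dvd_ordCompl 𝔩.hp hn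
  set k := n.factorization 𝔩.p with hk
  set m := n / 𝔩.p ^ k with hm'
  have hm0 : m ≠ 0 := by
    rintro h0
    rw [h0, mul_zero] at h
    exact hn h.symm
  have h1 : (n : Qb) = (𝔩.p : Qb) ^ k * (m : Qb) := by
    rw [← h]
    push_cast
    rfl
  have hmQ : (m : Qb) ≠ 0 := by exact_mod_cast hm0
  have hord_m : 𝔩.v.ord (m : Qb) = 0 := by
    rw [𝔩.ord_def]
    have := qvOrd_intCast (L := Qb) 𝔩.P 𝔩.hp 𝔩.hP (n := (m : ℤ)) (by
      intro hdvd
      exact hm (by exact_mod_cast hdvd))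
    simpa using this
  rw [h1, 𝔩.v.ord_mul' (pow_ne_zero _ 𝔩.p_ne_zero) hmQ, 𝔩.v.ord_pow 𝔩.p_ne_zero, 𝔩.is_p.2,
    hord_m]
  ring

/-- a natural number all of whose prime exponents are divisible by `P` is a `P`-th power -/
theorem mzs_nat_eq_pow {n P : ℕ} (hn : n ≠ 0)
    (h : ∀ ℓ : ℕ, ℓ.Prime → P ∣ n.factorization ℓ) : ∃ m : ℕ, n = m ^ P := by
  set f : ℕ →₀ ℕ := n.factorization.mapRange (fun a => a / P) (by simp) with hf
  have hfsupp : ∀ ℓ ∈ f.support, Nat.Prime ℓ := by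
    intro ℓ hℓ
    have h1 : ℓ ∈ n.factorization.support :=
      Finsupp.support_mapRange hℓ
    exact Nat.prime_of_mem_primeFactors (by simpa using h1)
  refine ⟨f.prod (· ^ ·), ?_⟩
  have hm0 : f.prod (· ^ ·) ≠ 0 := by
    rw [Finsupp.prod, Finset.prod_ne_zero_iff]
    intro ℓ hℓ
    exact pow_ne_zero _ (hfsupp ℓ hℓ).ne_zero
  apply Nat.eq_of_factorization_eq hn (pow_ne_zero _ hm0)
  intro ℓ
  rw [Nat.factorization_pow, Nat.prod_pow_factorization_eq_self hfsupp, Finsupp.smul_apply,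
    hf, Finsupp.mapRange_apply, smul_eq_mul]
  by_cases hℓ : ℓ.Prime
  · exact (Nat.mul_div_cancel' (h ℓ hℓ)).symm
  · rw [Nat.factorization_eq_zero_of_not_prime n hℓ, Nat.zero_div, mul_zero]

/-- a nonzero rational number whose valuation at one place of `ℚ̄` over each prime is divisible by
`P` is plus or minus a `P`-th power -/
theorem mzs_rat_eq_pow {r : ℚ} {P : ℕ} (hr : r ≠ 0) (hP : P ≠ 0)
    (h : ∀ ℓ : ℕ, ℓ.Prime → ∃ 𝔩 : FFPlace, 𝔩.p = ℓ ∧
      ∃ k : ℤ, 𝔩.v.ord (algebraMap ℚ Qb r) = (P : ℚ) * k) :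
    ∃ s : ℚ, s ≠ 0 ∧ (r = s ^ P ∨ r = -s ^ P) := by
  set a := r.num.natAbs with ha
  set b := r.den with hb
  have ha0 : a ≠ 0 := by
    rw [ha, Int.natAbs_ne_zero]
    exact Rat.num_ne_zero.mpr hr
  have hb0 : b ≠ 0 := r.den_ne_zero
  have hcop : Nat.Coprime a b := r.reduced
  -- `r = ± a / b`
  have hrab : r = (a : ℚ) / b ∨ r = -((a : ℚ) / b) := by
    have h1 : r = (r.num : ℚ) / (r.den : ℚ) := (Rat.num_div_den r).symm
    rcases le_total 0 r.num with hpos | hneg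
    · left
      have h3 : (r.num : ℚ) = ((a : ℕ) : ℚ) := by
        have h4 : ((r.num.natAbs : ℤ) : ℚ) = (r.num : ℚ) := by
          rw [Int.natAbs_of_nonneg hpos]
        rw [ha, ← h4, Int.cast_natCast]
      rw [h1, h3]
    · right
      have h3 : (r.num : ℚ) = -((a : ℕ) : ℚ) := by
        have h4 : ((r.num.natAbs : ℤ) : ℚ) = -(r.num : ℚ) := by
          rw [Int.ofNat_natAbs_of_nonpos hneg, Int.cast_neg]
        rw [ha, ← Int.cast_natCast, h4, neg_neg]
      rw [h1, h3, neg_div]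
  -- valuations
  have hval : ∀ 𝔩 : FFPlace, 𝔩.v.ord (algebraMap ℚ Qb r) =
      (a.factorization 𝔩.p : ℚ) - (b.factorization 𝔩.p : ℚ) := by
    intro 𝔩
    have haQ : ((a : ℕ) : Qb) ≠ 0 := by exact_mod_cast ha0
    have hbQ : ((b : ℕ) : Qb) ≠ 0 := by exact_mod_cast hb0
    have h1 : 𝔩.v.ord (algebraMap ℚ Qb r) = 𝔩.v.ord (((a : ℕ) : Qb) / ((b : ℕ) : Qb)) := by
      rcases hrab with h2 | h2
      · rw [h2]
        simp
      · rw [h2]
        simp only [map_neg, map_div₀, map_natCast]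
        rw [𝔩.v.ord_neg]
    rw [h1, 𝔩.v.ord_div haQ hbQ, mzs_ord_natCast 𝔩 ha0, mzs_ord_natCast 𝔩 hb0]
  have hdiv : ∀ ℓ : ℕ, ℓ.Prime → P ∣ a.factorization ℓ ∧ P ∣ b.factorization ℓ := by
    intro ℓ hℓ
    obtain ⟨𝔩, rfl, k, hk⟩ := h ℓ hℓ
    rw [hval 𝔩] at hk
    have hk' : (a.factorization 𝔩.p : ℤ) - (b.factorization 𝔩.p : ℤ) = (P : ℤ) * k := by
      have : (((a.factorization 𝔩.p : ℤ) - (b.factorization 𝔩.p : ℤ) : ℤ) : ℚ) =
          (((P : ℤ) * k : ℤ) : ℚ) := by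
        push_cast
        exact hk
      exact_mod_cast this
    -- one of the two exponents vanishes
    have hzero : a.factorization 𝔩.p = 0 ∨ b.factorization 𝔩.p = 0 := by
      by_contra hcon
      rw [not_or] at hcon
      have h1 : 𝔩.p ∣ a := Nat.dvd_of_factorization_pos hcon.1
      have h2 : 𝔩.p ∣ b := Nat.dvd_of_factorization_pos hcon.2
      have := Nat.eq_one_of_dvd_coprimes hcop h1 h2
      exact hℓ.one_lt.ne' this
    rcases hzero with h0 | h0
    · rw [h0] at hk' ⊢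
      refine ⟨dvd_zero _, ?_⟩
      have : (P : ℤ) ∣ (b.factorization 𝔩.p : ℤ) := ⟨-k, by
        simp only [Nat.cast_zero, zero_sub] at hk'
        linarith⟩
      exact_mod_cast this
    · rw [h0] at hk' ⊢
      refine ⟨?_, dvd_zero _⟩
      have : (P : ℤ) ∣ (a.factorization 𝔩.p : ℤ) := ⟨k, by
        simp only [Nat.cast_zero, sub_zero] at hk'
        exact hk'⟩
      exact_mod_cast this
  obtain ⟨A, hA⟩ := mzs_nat_eq_pow ha0 (fun ℓ hℓ => (hdiv ℓ hℓ).1)
  obtain ⟨B, hB⟩ := mzs_nat_eq_pow hb0 (fun ℓ hℓ => (hdiv ℓ hℓ).2)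
  have hA0 : A ≠ 0 := by
    rintro rfl
    rw [zero_pow hP] at hA
    exact ha0 hA
  have hB0 : B ≠ 0 := by
    rintro rfl
    rw [zero_pow hP] at hB
    exact hb0 hB
  refine ⟨(A : ℚ) / B, div_ne_zero (by exact_mod_cast hA0) (by exact_mod_cast hB0), ?_⟩
  have hpow : ((A : ℚ) / B) ^ P = (a : ℚ) / b := by
    rw [div_pow, hA, hB]
    push_cast
    rfl
  rw [hpow]
  exact hrab

end Fermat.Agent.Mazur
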