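/-
MAZUR (Track M), package (S) (helper5), part 9: **the base value for objects of `μ` type**.

`X` of prime order `P = 𝔓.p` with `G_ℚ` acting through the cyclotomic character (an injective
equivariant character `ι : X → ℚ̄ˣ`).  For a cone-Selmer cocycle `(c, m)`, Hilbert 90 gives
`ι ∘ c = dγ`, `γ ^ P = a ∈ ℚˣ`, and the Selmer conditions force `P ∣ v_ℓ(a)` for every prime `ℓ`
(unramified outside `𝔭, 𝔓`; peu ramifié at `𝔓`; `c = dm` on the inertia group at `𝔭`), so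
`a = ± b ^ P` and `γ` may be taken in `μ_{2P}` (`mzs_kummer_core`).  Counting gives the numerical
criterion (`mzs_good_mu`), `P = 2` included.
-/
import Fermat.Agent.Lib.Mazur.Sel.Obj
import Fermat.Agent.Lib.Mazur.Sel.H90
import Fermat.Agent.Lib.Mazur.Sel.Arith
import Fermat.Agent.Lib.TW.LF.Unr

set_option autoImplicit false
set_option linter.unusedSectionVars false
set_option linter.style.haveILetI false

namespace Fermat.Agent.Mazur

open Fermat.Agent.TW Fermat.Agent.S05Lib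

local notation "Qb" => AlgebraicClosure ℚ
local notation "GQ" => (AlgebraicClosure ℚ ≃ₐ[ℚ] AlgebraicClosure ℚ)

/-- an element of `ℚ̄ˣ` fixed by the inertia group of a place has integral valuation there -/
theorem mzs_ord_int_of_fixed (𝔩 : FFPlace) {x : Qb} (hx0 : x ≠ 0) (hfix : ∀ i ∈ 𝔩.I, i x = x) :
    ∃ k : ℤ, 𝔩.v.ord x = k :=
  𝔩.lf_unr x ((𝔩.mem_K0_iff x).mpr hfix) hx0

theorem mzs_addChar_ne_zero {X : Type*} [AddCommGroup X] (ι : AddChar X Qb) (x : X) : ι x ≠ 0 := by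
  intro h
  have h1 : ι x * ι (-x) = 1 := by
    rw [← AddChar.map_add_eq_mul, add_neg_cancel, AddChar.map_zero_eq_one]
  rw [h, zero_mul] at h1
  exact zero_ne_one h1

variable {𝔭 𝔓 : FFPlace} {X : Type*} [AddCommGroup X] [DistribMulAction GQ X]

/-- **the Kummer core**: for a cone-Selmer cocycle `(c, m)` of an object of `μ` type,
`ι ∘ c` is the coboundary of some `γ ∈ μ_{2P}` -/
theorem mzs_kummer_core [Finite X] (O : MzsObj 𝔭 𝔓 X)
    (hcard : Nat.card X = 𝔓.p) (ι : AddChar X Qb)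
    (hequiv : ∀ (g : GQ) (x : X), ι (g • x) = g (ι x)) {q : (GQ → X) × X} (hq : q ∈ O.str.Z1) :
    ∃ γ : Qb, γ ≠ 0 ∧ (γ ^ 𝔓.p = 1 ∨ γ ^ 𝔓.p = -1) ∧ ∀ g : GQ, ι (q.1 g) = g γ / γ := by
  obtain ⟨c, m⟩ := q
  obtain ⟨hlc, hcoc, hloc, hI, -⟩ := hq
  simp only at hlc hcoc hloc hI
  obtain ⟨hl1, -, hl3⟩ := hloc
  have hP0 : 𝔓.p ≠ 0 := 𝔓.hp.ne_zero
  have hPx : ∀ x : X, 𝔓.p • x = 0 := fun x => by
    rw [← hcard]
    exact card_nsmul_eq_zero'
  have hιP : ∀ x : X, ι x ^ 𝔓.p = 1 := fun x => by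
    rw [← AddChar.map_nsmul_eq_pow, hPx, AddChar.map_zero_eq_one]
  have hc1 : c 1 = 0 := hcoc.map_one
  -- Hilbert 90
  obtain ⟨γ₀, hγ₀, hu⟩ := mzs_hilbert90 (fun g => ι (c g)) (fun g => mzs_addChar_ne_zero ι _)
    (by
      refine Filter.mem_of_superset ((hlc.isOpen_fiber (c 1)).mem_nhds rfl) ?_
      intro g hg
      have hg' : c g = c 1 := hg
      show ι (c g) = 1
      rw [hg', hc1, AddChar.map_zero_eq_one])
    (by
      intro g h
      show ι (c (g * h)) = ι (c g) * g (ι (c h))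
      rw [hcoc g h, AddChar.map_add_eq_mul, hequiv])
  have hu' : ∀ g : GQ, g γ₀ = ι (c g) * γ₀ := fun g => by
    have h1 : ι (c g) = g γ₀ / γ₀ := hu g
    rw [h1, div_mul_cancel₀ _ hγ₀]
  -- `γ₀ ^ P` is rational
  obtain ⟨r, hr⟩ := mzs_mem_range_of_fixed (γ₀ ^ 𝔓.p) (fun g => by
    rw [map_pow, hu', mul_pow, hιP, one_mul])
  have hr0 : r ≠ 0 := by
    rintro rfl
    rw [map_zero] at hr
    exact pow_ne_zero 𝔓.p hγ₀ hr.symm
  -- integrality of the valuations of `γ₀`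
  have hint : ∀ ℓ : ℕ, ℓ.Prime → ∃ 𝔩 : FFPlace, 𝔩.p = ℓ ∧
      ∃ k : ℤ, 𝔩.v.ord (algebraMap ℚ Qb r) = (𝔓.p : ℚ) * k := by
    intro ℓ hℓ
    have hred : ∀ 𝔩 : FFPlace, (∃ k : ℤ, 𝔩.v.ord γ₀ = k) →
        ∃ k : ℤ, 𝔩.v.ord (algebraMap ℚ Qb r) = (𝔓.p : ℚ) * k := by
      rintro 𝔩 ⟨k, hk⟩
      exact ⟨k, by rw [hr, 𝔩.v.ord_pow hγ₀, hk]⟩
    by_cases hℓp : ℓ = 𝔭.p
    · -- the level prime: `c = dm` on inertia
      refine ⟨𝔭, hℓp.symm, hred 𝔭 ?_⟩
      have hm0 : ι m ≠ 0 := mzs_addChar_ne_zero ι m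
      obtain ⟨k, hk⟩ := mzs_ord_int_of_fixed 𝔭 (div_ne_zero hγ₀ hm0) (fun i hi => by
        have hgm0 : i (ι m) ≠ 0 := (map_ne_zero_iff i i.injective).mpr hm0
        rw [map_div₀, hu', hI i hi, AddChar.map_sub_eq_div, hequiv]
        field_simp)
      refine ⟨k, ?_⟩
      rw [𝔭.v.ord_div hγ₀ hm0, (𝔭.is_zero_of_pow_eq_one (Nat.pos_of_ne_zero hP0) (hιP m)).2,
        sub_zero] at hk
      exact hk
    · by_cases hℓP : ℓ = 𝔓.p
      · -- the place `𝔓`: peu ramifié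
        refine ⟨𝔓, hℓP.symm, hred 𝔓 ?_⟩
        obtain ⟨β, hβ, hβu⟩ := hl3 ι
        obtain ⟨k, hk⟩ := mzs_ord_int_of_fixed 𝔓 (div_ne_zero hγ₀ hβ.1) (fun i hi => by
          have hgβ0 : i β ≠ 0 := (map_ne_zero_iff i i.injective).mpr hβ.1
          have h1 : ι (c i) = i β / β := hβu i hi
          rw [map_div₀, hu', h1]
          have := hβ.1
          field_simp)
        refine ⟨k, ?_⟩
        rw [𝔓.v.ord_div hγ₀ hβ.1, hβ.2, sub_zero] at hk
        exact hk
      · -- unramified primes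
        haveI : Fact ℓ.Prime := ⟨hℓ⟩
        refine ⟨ffPlaceAt ℓ, rfl, hred _ ?_⟩
        refine mzs_ord_int_of_fixed _ hγ₀ (fun i hi => ?_)
        rw [hu', hl1 (ffPlaceAt ℓ) hℓp hℓP i hi, AddChar.map_zero_eq_one, one_mul]
  obtain ⟨s, hs0, hs⟩ := mzs_rat_eq_pow hr0 hP0 hint
  have hsQ : algebraMap ℚ Qb s ≠ 0 := (map_ne_zero_iff _ (algebraMap ℚ Qb).injective).mpr hs0
  refine ⟨γ₀ / algebraMap ℚ Qb s, div_ne_zero hγ₀ hsQ, ?_, fun g => ?_⟩
  · rw [div_pow, ← hr, ← map_pow]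
    rcases hs with h | h
    · left
      rw [h, div_self]
      exact (map_ne_zero_iff _ (algebraMap ℚ Qb).injective).mpr (pow_ne_zero _ hs0)
    · right
      rw [h, map_neg, neg_div, div_self]
      exact (map_ne_zero_iff _ (algebraMap ℚ Qb).injective).mpr (pow_ne_zero _ hs0)
  · rw [map_div₀, AlgEquiv.commutes, div_div_div_cancel_right₀ hsQ]
    exact hu g

/-- the image of an injective character of a group of prime order `P` is `μ_P` -/
theorem mzs_exists_eq_iota [Finite X] (hcard : Nat.card X = 𝔓.p) (ι : AddChar X Qb)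
    (hι : Function.Injective ι) {ζ : Qb} (hζ : ζ ^ 𝔓.p = 1) : ∃ x : X, ι x = ζ := by
  have hPpos : 0 < 𝔓.p := 𝔓.hp.pos
  have hιP : ∀ x : X, ι x ^ 𝔓.p = 1 := fun x => by
    rw [← AddChar.map_nsmul_eq_pow, ← hcard, card_nsmul_eq_zero', AddChar.map_zero_eq_one]
  let S := Polynomial.nthRootsFinset 𝔓.p (1 : Qb)
  let f : X → ↥S := fun x => ⟨ι x, (Polynomial.mem_nthRootsFinset hPpos 1).mpr (hιP x)⟩
  have hf : Function.Injective f := fun a b hab => hι (congrArg Subtype.val hab)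
  have hcardS : Nat.card ↥S ≤ Nat.card X := by
    rw [hcard, Nat.card_eq_fintype_card, Fintype.card_coe]
    classical
    calc (Polynomial.nthRootsFinset 𝔓.p (1 : Qb)).card
        ≤ Multiset.card (Polynomial.nthRoots 𝔓.p (1 : Qb)) := by
          unfold Polynomial.nthRootsFinset
          exact Multiset.toFinset_card_le _
      _ ≤ 𝔓.p := Polynomial.card_nthRoots _ _
  obtain ⟨x, hx⟩ := (hf.bijective_of_nat_card_le hcardS).2
    ⟨ζ, (Polynomial.mem_nthRootsFinset hPpos 1).mpr hζ⟩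
  exact ⟨x, congrArg Subtype.val hx⟩

/-- `P` odd: the cocycle of a cone-Selmer pair of an object of `μ` type is a coboundary -/
theorem mzs_exists_eq_D_odd [Finite X] (O : MzsObj 𝔭 𝔓 X)
    (hcard : Nat.card X = 𝔓.p) (ι : AddChar X Qb) (hι : Function.Injective ι)
    (hequiv : ∀ (g : GQ) (x : X), ι (g • x) = g (ι x)) (hodd : 𝔓.p ≠ 2)
    {q : (GQ → X) × X} (hq : q ∈ O.str.Z1) : ∃ x : X, q.1 = mzsD GQ x := by
  obtain ⟨γ, hγ0, hγP, hγ⟩ := mzs_kummer_core O hcard ι hequiv hq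
  have hoddP : Odd 𝔓.p := 𝔓.hp.odd_of_ne_two hodd
  -- normalise `γ ^ P = 1`
  obtain ⟨γ', hγ'P, hγ'⟩ : ∃ γ' : Qb, γ' ^ 𝔓.p = 1 ∧ ∀ g : GQ, ι (q.1 g) = g γ' / γ' := by
    rcases hγP with h | h
    · exact ⟨γ, h, hγ⟩
    · refine ⟨-γ, by rw [hoddP.neg_pow, h, neg_neg], fun g => ?_⟩
      rw [map_neg, neg_div_neg_eq]
      exact hγ g
  obtain ⟨x, hx⟩ := mzs_exists_eq_iota hcard ι hι hγ'P
  refine ⟨x, funext fun g => hι ?_⟩
  rw [hγ' g, ← hx, mzsD_apply, AddChar.map_sub_eq_div, hequiv]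

/-- membership in `B̃¹` of a difference of two pairs with coboundary first components -/
theorem mzs_sub_mem_B1 (O : MzsObj 𝔭 𝔓 X) {q q' : (GQ → X) × X} {x x' : X}
    (hx : q.1 = mzsD GQ x) (hx' : q'.1 = mzsD GQ x')
    (h : (q.2 - x) - (q'.2 - x') ∈ O.Xp) : q - q' ∈ O.str.B1 := by
  refine ⟨x - x', -((q.2 - x) - (q'.2 - x')), O.Xp.neg_mem h, ?_, ?_⟩
  · rw [Prod.fst_sub, hx, hx', mzsD_sub]
  · rw [Prod.snd_sub]
    abel

/-- **`μ` type, `P` odd**: `#H̃¹ ≤ [X : Xp]` -/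
theorem mzs_card_H1_le_mu_odd [Finite X] (O : MzsObj 𝔭 𝔓 X)
    (hcard : Nat.card X = 𝔓.p) (ι : AddChar X Qb) (hι : Function.Injective ι)
    (hequiv : ∀ (g : GQ) (x : X), ι (g • x) = g (ι x)) (hodd : 𝔓.p ≠ 2) :
    Finite O.str.H1 ∧ Nat.card O.str.H1 ≤ O.Xp.index := by
  classical
  have hrep : ∀ a : O.str.H1, ∃ q : ↥O.str.Z1, QuotientAddGroup.mk q = a :=
    fun a => QuotientAddGroup.mk_surjective a
  choose rep hrepa using hrep
  have hx : ∀ q : ↥O.str.Z1, ∃ x : X, (q : (GQ → X) × X).1 = mzsD GQ x :=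
    fun q => mzs_exists_eq_D_odd O hcard ι hι hequiv hodd q.2
  choose xof hxof using hx
  let ψ : O.str.H1 → X ⧸ O.Xp := fun a =>
    QuotientAddGroup.mk ((rep a : (GQ → X) × X).2 - xof (rep a))
  have hψ : Function.Injective ψ := by
    intro a a' haa'
    rw [← hrepa a, ← hrepa a', QuotientAddGroup.eq_iff_sub_mem, AddSubgroup.mem_addSubgroupOf]
    refine mzs_sub_mem_B1 O (hxof (rep a)) (hxof (rep a')) ?_
    exact (QuotientAddGroup.eq_iff_sub_mem.mp haa')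
  haveI : Finite O.str.H1 := Finite.of_injective ψ hψ
  refine ⟨inferInstance, ?_⟩
  rw [AddSubgroup.index_eq_card]
  exact Nat.card_le_card_of_injective ψ hψ

/-- `P = 2`: the action on an object of `μ` type is trivial -/
theorem mzs_smul_eq_of_two (hP2 : 𝔓.p = 2) (hcard : Nat.card X = 𝔓.p) [Finite X]
    (ι : AddChar X Qb) (hι : Function.Injective ι)
    (hequiv : ∀ (g : GQ) (x : X), ι (g • x) = g (ι x)) (g : GQ) (x : X) : g • x = x := by
  apply hι
  rw [hequiv]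
  have h1 : ι x * ι x = 1 := by
    rw [← AddChar.map_add_eq_mul, ← two_nsmul, ← hP2, ← hcard, card_nsmul_eq_zero',
      AddChar.map_zero_eq_one]
  rcases mul_self_eq_one_iff.mp h1 with h | h
  · rw [h, map_one]
  · rw [h, map_neg, map_one]

/-- **`μ` type, `P = 2`**: `#H̃¹ ≤ 2` -/
theorem mzs_card_H1_le_mu_two [Finite X] (O : MzsObj 𝔭 𝔓 X)
    (hcard : Nat.card X = 𝔓.p) (ι : AddChar X Qb) (hι : Function.Injective ι)
    (hequiv : ∀ (g : GQ) (x : X), ι (g • x) = g (ι x)) (hP2 : 𝔓.p = 2) :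
    Finite O.str.H1 ∧ Nat.card O.str.H1 ≤ 2 := by
  classical
  have htriv := mzs_smul_eq_of_two hP2 hcard ι hι hequiv
  have hrep : ∀ a : O.str.H1, ∃ q : ↥O.str.Z1, QuotientAddGroup.mk q = a :=
    fun a => QuotientAddGroup.mk_surjective a
  choose rep hrepa using hrep
  let ψ : O.str.H1 → Bool := fun a => decide ((rep a : (GQ → X) × X).1 = 0)
  -- two cocycles which are both nonzero coincide
  have hkey : ∀ q q' : ↥O.str.Z1, (q : (GQ → X) × X).1 ≠ 0 → (q' : (GQ → X) × X).1 ≠ 0 →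
      (q : (GQ → X) × X).1 = (q' : (GQ → X) × X).1 := by
    intro q q' hq hq'
    obtain ⟨γ, hγ0, hγP, hγ⟩ := mzs_kummer_core O hcard ι hequiv q.2
    obtain ⟨γ', hγ'0, hγ'P, hγ'⟩ := mzs_kummer_core O hcard ι hequiv q'.2
    rw [hP2] at hγP hγ'P
    -- `γ ^ 2 = 1` forces the cocycle to vanish
    have hvanish : ∀ (c : GQ → X) (δ : Qb), δ ^ 2 = 1 → (∀ g : GQ, ι (c g) = g δ / δ) →
        c = 0 := by
      intro c δ hδ hc
      funext g
      apply hι
      rw [hc g, Pi.zero_apply, AddChar.map_zero_eq_one]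
      rcases sq_eq_one_iff.mp hδ with h | h
      · rw [h, map_one, div_one]
      · rw [h, map_neg, map_one, div_self]
        exact neg_ne_zero.mpr one_ne_zero
    have h1 : γ ^ 2 = -1 := by
      rcases hγP with h | h
      · exact absurd (hvanish _ γ h hγ) hq
      · exact h
    have h2 : γ' ^ 2 = -1 := by
      rcases hγ'P with h | h
      · exact absurd (hvanish _ γ' h hγ') hq'
      · exact h
    have h3 : (q : (GQ → X) × X).1 - (q' : (GQ → X) × X).1 = 0 := by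
      refine hvanish _ (γ / γ') (by rw [div_pow, h1, h2, div_self]; norm_num) (fun g => ?_)
      have hg0 : g γ' ≠ 0 := (map_ne_zero_iff g g.injective).mpr hγ'0
      rw [Pi.sub_apply, AddChar.map_sub_eq_div, hγ g, hγ' g, map_div₀]
      field_simp
    exact sub_eq_zero.mp h3
  have hψ : Function.Injective ψ := by
    intro a a' haa'
    rw [← hrepa a, ← hrepa a', QuotientAddGroup.eq_iff_sub_mem, AddSubgroup.mem_addSubgroupOf]
    have hfst : (rep a : (GQ → X) × X).1 = (rep a' : (GQ → X) × X).1 := by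
      by_cases h : (rep a : (GQ → X) × X).1 = 0
      · have h' : (rep a' : (GQ → X) × X).1 = 0 := by
          have : ψ a' = true := by rw [← haa']; exact decide_eq_true h
          exact of_decide_eq_true this
        rw [h, h']
      · have h' : (rep a' : (GQ → X) × X).1 ≠ 0 := by
          intro h'
          have : ψ a = true := by rw [haa']; exact decide_eq_true h'
          exact h (of_decide_eq_true this)
        exact hkey _ _ h h'
    refine ⟨(rep a : (GQ → X) × X).2 - (rep a' : (GQ → X) × X).2, 0, O.str.Xp.zero_mem, ?_, ?_⟩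
    · show (rep a : (GQ → X) × X).1 - (rep a' : (GQ → X) × X).1 = _
      rw [hfst, sub_self]
      funext g
      rw [mzsD_apply, htriv, sub_self, Pi.zero_apply]
    · show (rep a : (GQ → X) × X).2 - (rep a' : (GQ → X) × X).2 = _
      rw [sub_zero]
  haveI : Finite O.str.H1 := Finite.of_injective ψ hψ
  refine ⟨inferInstance, ?_⟩
  calc Nat.card O.str.H1 ≤ Nat.card Bool := Nat.card_le_card_of_injective ψ hψ
    _ = 2 := by simp

/-- **Base value, `μ` type**: the numerical criterion holds (`P = 2` included) -/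
theorem mzs_good_mu [Finite X] (O : MzsObj 𝔭 𝔓 X)
    (hcard : Nat.card X = 𝔓.p) (ι : AddChar X Qb) (hι : Function.Injective ι)
    (hequiv : ∀ (g : GQ) (x : X), ι (g • x) = g (ι x)) (h0 : O.X0 = ⊤) : O.str.Good O.X0 := by
  rw [MzsStr.Good, h0, AddSubgroup.index_top, mul_one, MzsObj.str_Xp]
  by_cases hP2 : 𝔓.p = 2
  · obtain ⟨hfin, hle⟩ := mzs_card_H1_le_mu_two O hcard ι hι hequiv hP2
    refine ⟨hfin, hle.trans (le_of_eq ?_)⟩
    have htriv := mzs_smul_eq_of_two hP2 hcard ι hι hequiv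
    have hH0 : Nat.card ↥O.str.H0 = Nat.card ↥O.Xp := by
      refine Nat.card_congr (Equiv.subtypeEquivRight fun x => ?_)
      rw [MzsStr.mem_H0]
      exact ⟨fun h => h.2, fun h => ⟨fun g => htriv g x, h⟩⟩
    rw [hH0, O.Xp.card_mul_index, hcard, hP2]
  · obtain ⟨hfin, hle⟩ := mzs_card_H1_le_mu_odd O hcard ι hι hequiv hP2
    refine ⟨hfin, hle.trans ?_⟩
    exact Nat.le_mul_of_pos_left _ Nat.card_pos

end Fermat.Agent.Mazur
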