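/-
MAZUR (Track M), package (S) (helper5), part 11: **simple objects**.

An object `Y` of prime order `P = 𝔓.p` on which `G_ℚ` acts trivially or through the cyclotomic
character satisfies the numerical criterion (`mzs_good_simple`): the position of `Y0` (`⊥` or `⊤`) is
automatically consistent with the action for `P` odd, because the inertia group at `𝔓` moves the
`P`-th roots of unity (`mzs_exists_inertia_zeta_ne`), and for `P = 2` the two actions coincide.
-/
import Fermat.Agent.Lib.Mazur.Sel.Etale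
import Fermat.Agent.Lib.Mazur.Sel.Mu
import Fermat.Agent.Lib.TW.LF.ValLemmas

set_option autoImplicit false
set_option linter.unusedSectionVars false
set_option linter.style.haveILetI false

namespace Fermat.Agent.Mazur

open Fermat.Agent.TW Fermat.Agent.S05Lib

local notation "Qb" => AlgebraicClosure ℚ
local notation "GQ" => (AlgebraicClosure ℚ ≃ₐ[ℚ] AlgebraicClosure ℚ)

/-- **the inertia group at `𝔓` moves the `P`-th roots of unity** (`P ≥ 3`) -/
theorem mzs_exists_inertia_zeta_ne (𝔓 : FFPlace) (h3 : 3 ≤ 𝔓.p) {ζ : Qb}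
    (hζ : IsPrimitiveRoot ζ 𝔓.p) : ∃ i ∈ 𝔓.I, i ζ ≠ ζ := by
  by_contra hcon
  have hfix : ∀ i ∈ 𝔓.I, i ζ = ζ := by
    intro i hi
    by_contra h
    exact hcon ⟨i, hi, h⟩
  have his := 𝔓.lf_is_zeta_sub_one hζ
  obtain ⟨k, hk⟩ := mzs_ord_int_of_fixed 𝔓 his.1 (fun i hi => by
    rw [map_sub, map_one, hfix i hi])
  rw [his.2] at hk
  have hp1 : (1 : ℚ) < (𝔓.p : ℚ) - 1 := by
    have : (3 : ℚ) ≤ (𝔓.p : ℚ) := by exact_mod_cast h3
    linarith
  have hpos : (0 : ℚ) < (k : ℚ) := by
    rw [← hk]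
    positivity
  have hk1 : (1 : ℤ) ≤ k := by exact_mod_cast hpos
  have hlt : (k : ℚ) < 1 := by
    rw [← hk, div_lt_one (by linarith)]
    exact hp1
  have : k < 1 := by exact_mod_cast hlt
  omega

/-- a group of prime order has an injective character -/
theorem mzs_exists_injective_addChar {Y : Type*} [AddCommGroup Y] [Finite Y] {P : ℕ}
    (hP : P.Prime) (hcard : Nat.card Y = P) : ∃ ι : AddChar Y Qb, Function.Injective ι := by
  haveI : Fact (Nat.card Y).Prime := ⟨hcard ▸ hP⟩
  haveI : Nontrivial Y := by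
    rw [← Finite.one_lt_card_iff_nontrivial, hcard]
    exact hP.one_lt
  obtain ⟨y₀, hy₀⟩ := exists_ne (0 : Y)
  haveI : NeZero (Monoid.exponent (Multiplicative Y)) :=
    ⟨Monoid.exponent_ne_zero_of_finite⟩
  obtain ⟨φ, hφ⟩ := CommGroup.exists_apply_ne_one_of_hasEnoughRootsOfUnity (Multiplicative Y) Qb
    (a := Multiplicative.ofAdd y₀) (by
      intro h
      exact hy₀ (Multiplicative.ofAdd.injective h))
  let ι : AddChar Y Qb := AddChar.toMonoidHomEquiv.symm ((Units.coeHom Qb).comp φ)
  have hι : ∀ y : Y, ι y = ((φ (Multiplicative.ofAdd y) : Qbˣ) : Qb) := fun y => rfl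
  refine ⟨ι, ?_⟩
  -- the kernel is a proper subgroup of a group of prime order
  let K : AddSubgroup Y :=
    { carrier := {y | ι y = 1}
      zero_mem' := ι.map_zero_eq_one
      add_mem' := fun {a b} ha hb => by
        show ι (a + b) = 1
        rw [ι.map_add_eq_mul, ha, hb, mul_one]
      neg_mem' := fun {a} ha => by
        show ι (-a) = 1
        rw [ι.map_neg_eq_inv, ha, inv_one] }
  have hK : K = ⊥ := by
    rcases K.eq_bot_or_eq_top_of_prime_card with h | h
    · exact h
    · exfalso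
      have : y₀ ∈ K := by rw [h]; trivial
      have h1 : ι y₀ = 1 := this
      rw [hι] at h1
      exact hφ (Units.ext h1)
  intro a b hab
  have : a - b ∈ K := by
    show ι (a - b) = 1
    rw [ι.map_sub_eq_div, hab, div_self (mzs_addChar_ne_zero ι b)]
  rw [hK, AddSubgroup.mem_bot] at this
  exact sub_eq_zero.mp this

variable {𝔭 𝔓 : FFPlace} {Y : Type*} [AddCommGroup Y] [DistribMulAction GQ Y]

/-- **simple objects**: an object of prime order `P` with trivial or cyclotomic action satisfies the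
numerical criterion -/
theorem mzs_good_simple [Finite Y] (O : MzsObj 𝔭 𝔓 Y) (hcard : Nat.card Y = 𝔓.p)
    (htype : (∀ (g : GQ) (y : Y), g • y = y) ∨
      (∀ g : GQ, ∃ e : ℕ, (∀ ζ : Qb, ζ ^ 𝔓.p = 1 → g ζ = ζ ^ e) ∧ ∀ y : Y, g • y = e • y)) :
    O.str.Good O.X0 := by
  haveI : Fact (Nat.card Y).Prime := ⟨hcard ▸ 𝔓.hp⟩
  obtain ⟨ι, hι⟩ := mzs_exists_injective_addChar 𝔓.hp hcard
  have hιP : ∀ y : Y, ι y ^ 𝔓.p = 1 := fun y => by
    rw [← AddChar.map_nsmul_eq_pow, ← hcard, card_nsmul_eq_zero', AddChar.map_zero_eq_one]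
  haveI : Nontrivial Y := by
    rw [← Finite.one_lt_card_iff_nontrivial, hcard]
    exact 𝔓.hp.one_lt
  obtain ⟨y₀, hy₀⟩ := exists_ne (0 : Y)
  have hζ₀ : IsPrimitiveRoot (ι y₀) 𝔓.p := by
    refine isPrimitiveRoot_of_mem_nthRootsFinset 𝔓.hp
      ((Polynomial.mem_nthRootsFinset 𝔓.hp.pos _).mpr (hιP y₀)) ?_
    intro h
    rw [← AddChar.map_zero_eq_one ι] at h
    exact hy₀ (hι h)
  -- the contradiction for `P` odd
  have hram : 𝔓.p ≠ 2 → (∀ i ∈ 𝔓.I, i (ι y₀) = ι y₀) → False := by
    intro hP2 hfix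
    have h3 : 3 ≤ 𝔓.p := by
      have := 𝔓.hp.two_le
      omega
    obtain ⟨i, hi, hne⟩ := mzs_exists_inertia_zeta_ne 𝔓 h3 hζ₀
    exact hne (hfix i hi)
  rcases O.X0.eq_bot_or_eq_top_of_prime_card with h0 | h0
  · -- étale position
    rcases htype with htriv | hcyc
    · exact mzs_good_etale O htriv h0
    · -- the action is cyclotomic
      have hequiv : ∀ (g : GQ) (y : Y), ι (g • y) = g (ι y) := by
        intro g y
        obtain ⟨e, he1, he2⟩ := hcyc g
        rw [he2, AddChar.map_nsmul_eq_pow, he1 _ (hιP y)]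
      by_cases hP2 : 𝔓.p = 2
      · exact mzs_good_etale O (mzs_smul_eq_of_two hP2 hcard ι hι hequiv) h0
      · exfalso
        refine hram hP2 (fun i hi => ?_)
        have h1 := O.ord i hi y₀
        rw [h0, AddSubgroup.mem_bot, sub_eq_zero] at h1
        rw [← hequiv, h1]
  · -- `μ` position
    rcases htype with htriv | hcyc
    · by_cases hP2 : 𝔓.p = 2
      · refine mzs_good_mu O hcard ι hι (fun g y => ?_) h0
        rw [htriv]
        have h1 : ι y * ι y = 1 := by
          rw [← pow_two, ← hP2]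
          exact hιP y
        rcases mul_self_eq_one_iff.mp h1 with h | h
        · rw [h, map_one]
        · rw [h, map_neg, map_one]
      · exfalso
        refine hram hP2 (fun i hi => ?_)
        obtain ⟨e, he1, he2⟩ := O.cyc i hi
        have h1 := he1 y₀ (by rw [h0]; trivial)
        rw [htriv] at h1
        rw [he2 _ (by rw [hcard]; exact hιP y₀), ← AddChar.map_nsmul_eq_pow, ← h1]
    · have hequiv : ∀ (g : GQ) (y : Y), ι (g • y) = g (ι y) := by
        intro g y
        obtain ⟨e, he1, he2⟩ := hcyc g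
        rw [he2, AddChar.map_nsmul_eq_pow, he1 _ (hιP y)]
      exact mzs_good_mu O hcard ι hι hequiv h0

end Fermat.Agent.Mazur
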