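/-
MAZUR (Track M), package (S) (helper5), part 12: **the main theorem of (S)**.

`mzs_main` : for a concrete object `O` on a finite `G_ℚ`-module `X` with a `G_ℚ`-stable filtration
whose graded pieces have order `P = 𝔓.p` and `G_ℚ` acting trivially or through the cyclotomic
character mod `P`,

  `#H̃¹(X) · [X : X0] ≤ #H̃⁰(X) · [X : Xp]`.

Induction on the length of the filtration: `0 → F_n → X → X / F_n → 0`, the quotient is simple
(`mzs_good_simple`), the subobject has a shorter filtration, and the numerical criterion is inherited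
by extensions (`MzsSES.good`).
-/
import Fermat.Agent.Lib.Mazur.Sel.Simple
import Fermat.Agent.Lib.Mazur.Sel.SubQuot

set_option autoImplicit false
set_option linter.unusedSectionVars false
set_option linter.style.haveILetI false

namespace Fermat.Agent.Mazur

open Fermat.Agent.TW Fermat.Agent.S05Lib

local notation "Qb" => AlgebraicClosure ℚ
local notation "GQ" => (AlgebraicClosure ℚ ≃ₐ[ℚ] AlgebraicClosure ℚ)

universe u

variable {𝔭 𝔓 : FFPlace}

/-- the numerical criterion for filtered objects, by induction on the length of the filtration -/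
theorem mzs_good_of_filtration (n : ℕ) : ∀ {X : Type u} [AddCommGroup X] [DistribMulAction GQ X]
    [Finite X] (O : MzsObj 𝔭 𝔓 X) (F : ℕ → AddSubgroup X), F 0 = ⊥ → F n = ⊤ →
    (∀ j < n, F j ≤ F (j + 1)) →
    (∀ j ≤ n, ∀ (g : GQ), ∀ x ∈ F j, g • x ∈ F j) →
    (∀ j < n, (F j).relIndex (F (j + 1)) = 𝔓.p) →
    (∀ j < n, (∀ (g : GQ), ∀ x ∈ F (j + 1), g • x - x ∈ F j) ∨
      (∀ g : GQ, ∃ e : ℕ, (∀ ζ : Qb, ζ ^ 𝔓.p = 1 → g ζ = ζ ^ e) ∧
        ∀ x ∈ F (j + 1), g • x - e • x ∈ F j)) →
    O.str.Good O.X0 := by
  induction n with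
  | zero =>
    intro X _ _ _ O F hF0 hFn _ _ _ _
    have hbt : (⊥ : AddSubgroup X) = ⊤ := by rw [← hF0, hFn]
    haveI : Subsingleton X := by
      refine ⟨fun a b => ?_⟩
      have ha : a ∈ (⊥ : AddSubgroup X) := by rw [hbt]; trivial
      have hb : b ∈ (⊥ : AddSubgroup X) := by rw [hbt]; trivial
      rw [AddSubgroup.mem_bot] at ha hb
      rw [ha, hb]
    exact mzs_good_etale O (fun g x => Subsingleton.elim _ _) (Subsingleton.elim _ _)
  | succ n ih =>
    intro X _ _ _ O F hF0 hFn hmono hstab hcard htype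
    set L := F n with hLdef
    have hL : ∀ (g : GQ), ∀ x ∈ L, g • x ∈ L := hstab n (Nat.le_succ n)
    -- the chain is below `L`
    have hle : ∀ k j : ℕ, j + k = n → F j ≤ L := by
      intro k
      induction k with
      | zero =>
        intro j hj
        rw [add_zero] at hj
        rw [hj]
      | succ k ihk =>
        intro j hj
        exact (hmono j (by omega)).trans (ihk (j + 1) (by omega))
    have hleL : ∀ j ≤ n, F j ≤ L := fun j hj => hle (n - j) j (by omega)
    -- the quotient is simple
    have hquot : (O.quot L hL).str.Good (O.quot L hL).X0 := by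
      refine mzs_good_simple (O.quot L hL) ?_ ?_
      · have h1 := hcard n (Nat.lt_succ_self n)
        rw [hFn, AddSubgroup.relIndex_top_right] at h1
        rw [← h1]
        exact (AddSubgroup.index_eq_card L).symm
      · rcases htype n (Nat.lt_succ_self n) with h | h
        · left
          intro g y
          obtain ⟨x, rfl⟩ := mzsQuotMk_surjective L hL y
          rw [← mzsQuotMk_smul, mzsQuotMk_eq_iff]
          exact h g x (by rw [hFn]; trivial)
        · right
          intro g
          obtain ⟨e, he1, he2⟩ := h g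
          refine ⟨e, he1, fun y => ?_⟩
          obtain ⟨x, rfl⟩ := mzsQuotMk_surjective L hL y
          rw [← mzsQuotMk_smul, ← map_nsmul, mzsQuotMk_eq_iff]
          exact he2 x (by rw [hFn]; trivial)
    -- the subobject has a shorter filtration
    have hsub : (O.sub L hL).str.Good (O.sub L hL).X0 := by
      refine ih (O.sub L hL) (fun j => (F j).comap (mzsSubVal L hL)) ?_ ?_ ?_ ?_ ?_ ?_
      · rw [hF0]
        ext x
        rw [AddSubgroup.mem_comap, AddSubgroup.mem_bot, AddSubgroup.mem_bot]
        exact ⟨fun h => mzsSubVal_injective L hL (by rw [h, map_zero]), fun h => by rw [h, map_zero]⟩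
      · ext x
        rw [AddSubgroup.mem_comap]
        exact ⟨fun _ => trivial, fun _ => mzsSubVal_mem L hL x⟩
      · intro j hj x hx
        exact hmono j (by omega) hx
      · intro j hj g x hx
        show mzsSubVal L hL (g • x) ∈ F j
        rw [mzsSubVal_smul]
        exact hstab j (by omega) g _ hx
      · intro j hj
        rw [AddSubgroup.relIndex_comap, AddSubgroup.map_comap_eq]
        have hrange : (mzsSubVal L hL).range = L := AddSubgroup.range_subtype L
        rw [hrange, inf_eq_right.mpr (hleL (j + 1) (by omega))]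
        exact hcard j (by omega)
      · intro j hj
        rcases htype j (by omega) with h | h
        · left
          intro g x hx
          show mzsSubVal L hL (g • x - x) ∈ F j
          rw [map_sub, mzsSubVal_smul]
          exact h g _ hx
        · right
          intro g
          obtain ⟨e, he1, he2⟩ := h g
          refine ⟨e, he1, fun x hx => ?_⟩
          show mzsSubVal L hL (g • x - e • x) ∈ F j
          rw [map_sub, mzsSubVal_smul, map_nsmul]
          exact he2 _ hx
    exact (O.ses L hL).good (X0' := (O.sub L hL).X0) (X0 := O.X0) (X0'' := (O.quot L hL).X0)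
      (fun _ => Iff.rfl) (fun x hx => ⟨x, hx, rfl⟩) (fun _ hy => hy) hsub hquot

/-- **Main theorem of (S)**: `#H̃¹ · [X : X0] ≤ #H̃⁰ · [X : Xp]` for filtered objects -/
theorem mzs_main {X : Type u} [AddCommGroup X] [DistribMulAction GQ X] [Finite X]
    (O : MzsObj 𝔭 𝔓 X) (n : ℕ) (F : ℕ → AddSubgroup X) (hF0 : F 0 = ⊥) (hFn : F n = ⊤)
    (hmono : ∀ j < n, F j ≤ F (j + 1))
    (hstab : ∀ j ≤ n, ∀ (g : GQ), ∀ x ∈ F j, g • x ∈ F j)
    (hcard : ∀ j < n, (F j).relIndex (F (j + 1)) = 𝔓.p)
    (htype : ∀ j < n, (∀ (g : GQ), ∀ x ∈ F (j + 1), g • x - x ∈ F j) ∨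
      (∀ g : GQ, ∃ e : ℕ, (∀ ζ : Qb, ζ ^ 𝔓.p = 1 → g ζ = ζ ^ e) ∧
        ∀ x ∈ F (j + 1), g • x - e • x ∈ F j)) :
    Finite O.str.H1 ∧ Nat.card O.str.H1 * O.X0.index ≤ Nat.card ↥O.str.H0 * O.Xp.index :=
  mzs_good_of_filtration n O F hF0 hFn hmono hstab hcard htype

end Fermat.Agent.Mazur
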