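/-
MAZUR (Track M), package (S) (helper5), part 2: **the dévissage inequality for cone-Selmer groups**.

For a short exact sequence `0 → X' → X → X'' → 0` of `G`-modules with compatible cone-Selmer
structures (`MzsSES`: `Xp' = f⁻¹ Xp`, `Xp ↠ Xp''`, `loc' = f⁻¹ loc`, `g loc ⊆ loc''`):

  `#H̃¹(X) · #H̃⁰(X') · #H̃⁰(X'') ≤ #H̃¹(X') · #H̃¹(X'') · #H̃⁰(X)`

(`MzsSES.card_le`), i.e. `χ̃ = h̃¹ - h̃⁰` is subadditive.  This is the exactness of
`0 → H̃⁰(X') → H̃⁰(X) → H̃⁰(X'') → H̃¹(X') → H̃¹(X) → H̃¹(X'')` in the form needed for counting.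
-/
import Fermat.Agent.Lib.Mazur.Sel.Defs

set_option autoImplicit false
set_option linter.unusedSectionVars false

namespace Fermat.Agent.Mazur

variable {G : Type*} [Group G] [TopologicalSpace G]
variable {X' X X'' : Type*} [AddCommGroup X'] [DistribMulAction G X'] [AddCommGroup X]
  [DistribMulAction G X] [AddCommGroup X''] [DistribMulAction G X'']

/-- the map on pairs `(c, m) ↦ (f ∘ c, f m)` -/
def mzsPairMap (G : Type*) {X Y : Type*} [AddCommGroup X] [AddCommGroup Y] (f : X →+ Y) :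
    (G → X) × X →+ (G → Y) × Y where
  toFun q := (fun g => f (q.1 g), f q.2)
  map_zero' := by
    ext <;> simp
  map_add' a b := by
    ext <;> simp

@[simp] theorem mzsPairMap_fst {Y : Type*} [AddCommGroup Y] (f : X →+ Y) (q : (G → X) × X)
    (g : G) : (mzsPairMap G f q).1 g = f (q.1 g) := rfl

@[simp] theorem mzsPairMap_snd {Y : Type*} [AddCommGroup Y] (f : X →+ Y) (q : (G → X) × X) :
    (mzsPairMap G f q).2 = f q.2 := rfl

/-- a morphism of cone-Selmer structures -/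
structure MzsHom {Dp Ip : Subgroup G} (S : MzsStr G X Dp Ip) (T : MzsStr G X'' Dp Ip) where
  f : X →+ X''
  f_smul : ∀ (σ : G) (x : X), f (σ • x) = σ • f x
  f_Xp : ∀ x ∈ S.Xp, f x ∈ T.Xp
  f_loc : ∀ c ∈ S.loc, (fun g => f (c g)) ∈ T.loc

namespace MzsHom

variable {Dp Ip : Subgroup G} {S : MzsStr G X Dp Ip} {T : MzsStr G X'' Dp Ip} (φ : MzsHom S T)

theorem map_D (x : X) : (fun g => φ.f (mzsD G x g)) = mzsD G (φ.f x) := by
  funext g
  simp only [mzsD_apply, map_sub, φ.f_smul]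

theorem map_mem_Z1 {q : (G → X) × X} (hq : q ∈ S.Z1) : mzsPairMap G φ.f q ∈ T.Z1 := by
  obtain ⟨h1, h2, h3, h4, h5⟩ := hq
  refine ⟨h1.comp φ.f, ?_, φ.f_loc _ h3, ?_, ?_⟩
  · intro g h
    simp only [mzsPairMap_fst, h2 g h, map_add, φ.f_smul]
  · intro i hi
    simp only [mzsPairMap_fst, mzsPairMap_snd, h4 i hi, map_sub, φ.f_smul]
  · intro g hg
    have h := φ.f_Xp _ (h5 g hg)
    simpa only [mzsPairMap_fst, mzsPairMap_snd, map_sub, φ.f_smul] using h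

theorem map_mem_B1 {q : (G → X) × X} (hq : q ∈ S.B1) : mzsPairMap G φ.f q ∈ T.B1 := by
  obtain ⟨x, xp, hxp, h1, h2⟩ := hq
  refine ⟨φ.f x, φ.f xp, φ.f_Xp _ hxp, ?_, ?_⟩
  · funext g
    simp only [mzsPairMap_fst, h1, mzsD_apply, map_sub, φ.f_smul]
  · simp only [mzsPairMap_snd, h2, map_sub]

/-- the induced map on cocycles -/
def mapZ1 : ↥S.Z1 →+ ↥T.Z1 where
  toFun q := ⟨mzsPairMap G φ.f q.1, φ.map_mem_Z1 q.2⟩
  map_zero' := by
    apply Subtype.ext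
    simp
  map_add' a b := by
    apply Subtype.ext
    simp

@[simp] theorem coe_mapZ1 (q : ↥S.Z1) :
    ((φ.mapZ1 q : ↥T.Z1) : (G → X'') × X'') = mzsPairMap G φ.f q.1 := rfl

/-- **the induced map `H̃¹(X) → H̃¹(X'')`** -/
def mapH1 : S.H1 →+ T.H1 :=
  QuotientAddGroup.map _ _ φ.mapZ1 (by
    intro q hq
    rw [AddSubgroup.mem_comap, AddSubgroup.mem_addSubgroupOf, coe_mapZ1]
    exact φ.map_mem_B1 (AddSubgroup.mem_addSubgroupOf.mp hq))

theorem mapH1_mk (q : ↥S.Z1) :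
    φ.mapH1 (QuotientAddGroup.mk q) = QuotientAddGroup.mk (φ.mapZ1 q) := rfl

theorem map_mem_H0 {x : X} (hx : x ∈ S.H0) : φ.f x ∈ T.H0 :=
  ⟨fun g => by rw [← φ.f_smul, hx.1 g], φ.f_Xp _ hx.2⟩

end MzsHom

/-- a short exact sequence of cone-Selmer structures -/
structure MzsSES {Dp Ip : Subgroup G} (S' : MzsStr G X' Dp Ip) (S : MzsStr G X Dp Ip)
    (S'' : MzsStr G X'' Dp Ip) where
  f : X' →+ X
  g : X →+ X''
  f_smul : ∀ (σ : G) (x : X'), f (σ • x) = σ • f x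
  g_smul : ∀ (σ : G) (x : X), g (σ • x) = σ • g x
  f_inj : Function.Injective f
  g_surj : Function.Surjective g
  exact : ∀ x : X, g x = 0 ↔ ∃ x' : X', f x' = x
  Xp_f : ∀ x' : X', f x' ∈ S.Xp ↔ x' ∈ S'.Xp
  Xp_g : ∀ x ∈ S.Xp, g x ∈ S''.Xp
  Xp_g_surj : ∀ y ∈ S''.Xp, ∃ x ∈ S.Xp, g x = y
  loc_f : ∀ c' : G → X', (fun σ => f (c' σ)) ∈ S.loc ↔ c' ∈ S'.loc
  loc_g : ∀ c ∈ S.loc, (fun σ => g (c σ)) ∈ S''.loc

namespace MzsSES

variable {Dp Ip : Subgroup G} {S' : MzsStr G X' Dp Ip} {S : MzsStr G X Dp Ip}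
  {S'' : MzsStr G X'' Dp Ip} (E : MzsSES S' S S'')

/-- the first morphism -/
def homF : MzsHom S' S where
  f := E.f
  f_smul := E.f_smul
  f_Xp := fun x hx => (E.Xp_f x).mpr hx
  f_loc := fun c hc => (E.loc_f c).mpr hc

/-- the second morphism -/
def homG : MzsHom S S'' where
  f := E.g
  f_smul := E.g_smul
  f_Xp := E.Xp_g
  f_loc := E.loc_g

theorem g_f (x' : X') : E.g (E.f x') = 0 := (E.exact _).mpr ⟨x', rfl⟩

/-- **the lifting lemma**: a cone-Selmer cocycle of `X` with values in `X'` comes from `X'` -/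
theorem exists_lift {q : (G → X) × X} (hq : q ∈ S.Z1) (h1 : ∀ σ, E.g (q.1 σ) = 0)
    (h2 : E.g q.2 = 0) : ∃ q' ∈ S'.Z1, mzsPairMap G E.f q' = q := by
  obtain ⟨hq1, hq2, hq3, hq4, hq5⟩ := hq
  have hc : ∀ σ, ∃ x' : X', E.f x' = q.1 σ := fun σ => (E.exact _).mp (h1 σ)
  obtain ⟨m', hm'⟩ := (E.exact _).mp h2
  choose c' hc' using hc
  have hfun : (fun σ => E.f (c' σ)) = q.1 := funext hc'
  refine ⟨(c', m'), ⟨?_, ?_, ?_, ?_, ?_⟩, ?_⟩
  · -- locally constant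
    rw [IsLocallyConstant.iff_exists_open] at hq1 ⊢
    intro σ
    obtain ⟨U, hU, hσ, hconst⟩ := hq1 σ
    refine ⟨U, hU, hσ, fun τ hτ => E.f_inj ?_⟩
    rw [hc', hc']
    exact hconst τ hτ
  · intro σ τ
    apply E.f_inj
    rw [map_add, E.f_smul, hc', hc', hc']
    exact hq2 σ τ
  · rw [← E.loc_f, hfun]
    exact hq3
  · intro i hi
    apply E.f_inj
    simp only [map_sub, E.f_smul, hc', hm']
    exact hq4 i hi
  · intro σ hσ
    rw [← E.Xp_f]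
    simp only [map_sub, E.f_smul, hc', hm']
    exact hq5 σ hσ
  · apply Prod.ext
    · exact hfun
    · exact hm'

/-- **exactness at `H̃¹(X)`** -/
theorem ker_le_range : E.homG.mapH1.ker ≤ E.homF.mapH1.range := by
  intro a ha
  obtain ⟨⟨q, hq⟩, rfl⟩ := QuotientAddGroup.mk_surjective a
  rw [AddMonoidHom.mem_ker, MzsHom.mapH1_mk, QuotientAddGroup.eq_zero_iff,
    AddSubgroup.mem_addSubgroupOf, MzsHom.coe_mapZ1] at ha
  obtain ⟨x'', xp'', hxp'', h1, h2⟩ := ha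
  obtain ⟨x, rfl⟩ := E.g_surj x''
  obtain ⟨xp, hxp, rfl⟩ := E.Xp_g_surj xp'' hxp''
  -- subtract the coboundary `(dx, x - xp)`
  have hb : ((mzsD G x, x - xp) : (G → X) × X) ∈ S.B1 := ⟨x, xp, hxp, rfl, rfl⟩
  have hq1 : q - (mzsD G x, x - xp) ∈ S.Z1 := S.Z1.sub_mem hq (S.B1_le_Z1 hb)
  have h1' : ∀ σ, E.g (q.1 σ) = mzsD G (E.g x) σ := fun σ => congrFun h1 σ
  have h2' : E.g q.2 = E.g x - E.g xp := h2
  obtain ⟨q', hq', hq'eq⟩ := E.exists_lift hq1 (by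
      intro σ
      simp only [Prod.fst_sub, Pi.sub_apply, map_sub, mzsD_apply, E.g_smul, h1' σ]
      abel) (by
      simp only [Prod.snd_sub, map_sub, h2']
      abel)
  refine ⟨QuotientAddGroup.mk ⟨q', hq'⟩, ?_⟩
  rw [MzsHom.mapH1_mk]
  apply (QuotientAddGroup.eq_iff_sub_mem).mpr
  rw [AddSubgroup.mem_addSubgroupOf]
  show mzsPairMap G E.f q' - q ∈ S.B1
  rw [show mzsPairMap G E.f q' = q - (mzsD G x, x - xp) from hq'eq]
  have : q - (mzsD G x, x - xp) - q = -(mzsD G x, x - xp) := by abel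
  rw [this]
  exact S.B1.neg_mem hb

end MzsSES

end Fermat.Agent.Mazur
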