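/-
MAZUR (Track M), package (S) (helper5), part 3: **the connecting map and the counting inequality**

  `#H̃¹(X) · #H̃⁰(X') · #H̃⁰(X'') ≤ #H̃¹(X') · #H̃¹(X'') · #H̃⁰(X)`   (`MzsSES.card_le`).
-/
import Fermat.Agent.Lib.Mazur.Sel.Exact

set_option autoImplicit false
set_option linter.unusedSectionVars false

namespace Fermat.Agent.Mazur

variable {G : Type*} [Group G] [TopologicalSpace G]
variable {X' X X'' : Type*} [AddCommGroup X'] [DistribMulAction G X'] [AddCommGroup X]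
  [DistribMulAction G X] [AddCommGroup X''] [DistribMulAction G X'']

namespace MzsSES

variable {Dp Ip : Subgroup G} {S' : MzsStr G X' Dp Ip} {S : MzsStr G X Dp Ip}
  {S'' : MzsStr G X'' Dp Ip} (E : MzsSES S' S S'')

/-- existence of the connecting class of `y ∈ H̃⁰(X'')` -/
theorem exists_delta (y : ↥S''.H0) : ∃ a : S'.H1, ∃ (x xp : X) (q' : (G → X') × X')
    (hq' : q' ∈ S'.Z1), E.g x = y ∧ xp ∈ S.Xp ∧ E.g xp = y ∧
      mzsPairMap G E.f q' = (mzsD G x, x - xp) ∧ a = QuotientAddGroup.mk ⟨q', hq'⟩ := by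
  obtain ⟨x, hx⟩ := E.g_surj y
  obtain ⟨xp, hxp, hxp2⟩ := E.Xp_g_surj y y.2.2
  have hb : ((mzsD G x, x - xp) : (G → X) × X) ∈ S.B1 := ⟨x, xp, hxp, rfl, rfl⟩
  obtain ⟨q', hq', hq'eq⟩ := E.exists_lift (S.B1_le_Z1 hb) (by
      intro σ
      simp only [mzsD_apply, map_sub, E.g_smul, hx, y.2.1 σ, sub_self]) (by
      simp only [map_sub, hx, hxp2, sub_self])
  exact ⟨_, x, xp, q', hq', hx, hxp, hxp2, hq'eq, rfl⟩

/-- **the connecting map** `H̃⁰(X'') → H̃¹(X')` (as a function) -/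
noncomputable def delta (y : ↥S''.H0) : S'.H1 := (E.exists_delta y).choose

theorem delta_spec (y : ↥S''.H0) : ∃ (x xp : X) (q' : (G → X') × X')
    (hq' : q' ∈ S'.Z1), E.g x = y ∧ xp ∈ S.Xp ∧ E.g xp = y ∧
      mzsPairMap G E.f q' = (mzsD G x, x - xp) ∧ E.delta y = QuotientAddGroup.mk ⟨q', hq'⟩ :=
  (E.exists_delta y).choose_spec

/-- the connecting classes die in `H̃¹(X)` -/
theorem mapH1_delta (y : ↥S''.H0) : E.homF.mapH1 (E.delta y) = 0 := by
  obtain ⟨x, xp, q', hq', -, hxp, -, h4, h5⟩ := E.delta_spec y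
  rw [h5, MzsHom.mapH1_mk, QuotientAddGroup.eq_zero_iff, AddSubgroup.mem_addSubgroupOf,
    MzsHom.coe_mapZ1]
  show mzsPairMap G E.f q' ∈ S.B1
  rw [h4]
  exact ⟨x, xp, hxp, rfl, rfl⟩

/-- **exactness at `H̃⁰(X'')`** -/
theorem delta_eq {y z : ↥S''.H0} (h : E.delta y = E.delta z) :
    ∃ b ∈ S.H0, E.g b = (y : X'') - z := by
  obtain ⟨x, xp, q', hq', h1, hxp, h3, h4, h5⟩ := E.delta_spec y
  obtain ⟨x₂, xp₂, q₂', hq₂', k1, kxp, k3, k4, k5⟩ := E.delta_spec z
  rw [h5, k5, QuotientAddGroup.eq_iff_sub_mem, AddSubgroup.mem_addSubgroupOf] at h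
  obtain ⟨x', xp', hxp', e1, e2⟩ := h
  have e1' : mzsPairMap G E.f (q' - q₂') = (mzsD G (E.f x'), E.f x' - E.f xp') := by
    apply Prod.ext
    · funext σ
      have := congrFun e1 σ
      simp only [mzsPairMap_fst, mzsD_apply, ← E.f_smul, ← map_sub]
      exact congrArg E.f this
    · simp only [mzsPairMap_snd, ← map_sub]
      exact congrArg E.f e2
  rw [map_sub, h4, k4] at e1'
  have f1 : mzsD G x - mzsD G x₂ = mzsD G (E.f x') := congrArg Prod.fst e1'
  have f2 : x - xp - (x₂ - xp₂) = E.f x' - E.f xp' := congrArg Prod.snd e1'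
  refine ⟨x - x₂ - E.f x', ⟨?_, ?_⟩, ?_⟩
  · intro σ
    have := congrFun f1 σ
    simp only [Pi.sub_apply, mzsD_apply] at this
    simp only [smul_sub]
    have h6 : σ • x - σ • x₂ - σ • E.f x' - (x - x₂ - E.f x') =
        (σ • x - x - (σ • x₂ - x₂)) - (σ • E.f x' - E.f x') := by abel
    exact sub_eq_zero.mp (by rw [h6, this, sub_self])
  · have h6 : x - x₂ - E.f x' = xp - xp₂ - E.f xp' := by
      have h7 : x - x₂ - E.f x' - (xp - xp₂ - E.f xp') =
          (x - xp - (x₂ - xp₂)) - (E.f x' - E.f xp') := by abel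
      exact sub_eq_zero.mp (by rw [h7, f2, sub_self])
    rw [h6]
    exact S.Xp.sub_mem (S.Xp.sub_mem hxp kxp) ((E.Xp_f xp').mpr hxp')
  · simp only [map_sub, h1, k1, E.g_f, sub_zero]

/-- `#H̃⁰(X'') ≤ #(im δ) · #g(H̃⁰(X))` -/
theorem card_H0_le [Finite X''] [Finite S'.H1] :
    Nat.card ↥S''.H0 ≤ (Set.range E.delta).ncard * Nat.card ↥(S.H0.map E.g) := by
  classical
  have hsec : ∀ a : Set.range E.delta, ∃ y : ↥S''.H0, E.delta y = a := fun a => a.2
  choose r hr using hsec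
  have hmem : ∀ y : ↥S''.H0, (y : X'') - r ⟨E.delta y, y, rfl⟩ ∈ S.H0.map E.g := by
    intro y
    obtain ⟨b, hb, hb2⟩ := E.delta_eq (y := y) (z := r ⟨E.delta y, y, rfl⟩) (hr ⟨E.delta y, y, rfl⟩).symm
    exact ⟨b, hb, hb2⟩
  let Φ : ↥S''.H0 → Set.range E.delta × ↥(S.H0.map E.g) := fun y =>
    (⟨E.delta y, y, rfl⟩, ⟨(y : X'') - r ⟨E.delta y, y, rfl⟩, hmem y⟩)
  have hΦ : Function.Injective Φ := by
    intro y z hyz
    have h1 : (⟨E.delta y, y, rfl⟩ : Set.range E.delta) = ⟨E.delta z, z, rfl⟩ :=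
      congrArg Prod.fst hyz
    have h2 : (y : X'') - r ⟨E.delta y, y, rfl⟩ = (z : X'') - r ⟨E.delta z, z, rfl⟩ :=
      congrArg (fun q => ((q.2 : ↥(S.H0.map E.g)) : X'')) hyz
    rw [h1] at h2
    exact Subtype.ext (sub_left_injective h2)
  have hfin : Finite (Set.range E.delta) := inferInstance
  calc Nat.card ↥S''.H0 ≤ Nat.card (Set.range E.delta × ↥(S.H0.map E.g)) :=
        Nat.card_le_card_of_injective Φ hΦ
    _ = Nat.card (Set.range E.delta) * Nat.card ↥(S.H0.map E.g) := Nat.card_prod _ _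
    _ = (Set.range E.delta).ncard * Nat.card ↥(S.H0.map E.g) := by
        rw [Nat.card_coe_set_eq]

/-- `#g(H̃⁰(X)) · #H̃⁰(X') ≤ #H̃⁰(X)` -/
theorem card_map_mul_le [Finite X] :
    Nat.card ↥(S.H0.map E.g) * Nat.card ↥S'.H0 ≤ Nat.card ↥S.H0 := by
  let gB : ↥S.H0 →+ X'' := E.g.comp S.H0.subtype
  have h1 : Nat.card ↥S.H0 = Nat.card ↥gB.range * Nat.card ↥gB.ker := by
    rw [AddSubgroup.card_eq_card_quotient_mul_card_addSubgroup gB.ker,
      Nat.card_congr (QuotientAddGroup.quotientKerEquivRange gB).toEquiv]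
  have h2 : gB.range = S.H0.map E.g := by
    ext y
    constructor
    · rintro ⟨b, rfl⟩
      exact ⟨b, b.2, rfl⟩
    · rintro ⟨b, hb, rfl⟩
      exact ⟨⟨b, hb⟩, rfl⟩
  have h3 : Nat.card ↥S'.H0 ≤ Nat.card ↥gB.ker := by
    let ι : ↥S'.H0 → ↥gB.ker := fun a => ⟨⟨E.f a, E.homF.map_mem_H0 a.2⟩, by
      rw [AddMonoidHom.mem_ker]
      exact E.g_f a⟩
    refine Nat.card_le_card_of_injective ι ?_
    intro a b hab
    have : E.f a = E.f b := congrArg (fun q => ((q : ↥gB.ker) : ↥S.H0).1) hab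
    exact Subtype.ext (E.f_inj this)
  rw [h1, h2]
  exact Nat.mul_le_mul_left _ h3

include E in
/-- **finiteness of `H̃¹(X)`** -/
theorem finite_H1 [Finite S'.H1] [Finite S''.H1] : Finite S.H1 := by
  have h0 : Finite ↥E.homF.mapH1.range :=
    Finite.of_surjective E.homF.mapH1.rangeRestrict E.homF.mapH1.rangeRestrict_surjective
  have h1 : Finite ↥E.homG.mapH1.ker :=
    Finite.of_injective (fun a : ↥E.homG.mapH1.ker =>
      (⟨a.1, E.ker_le_range a.2⟩ : ↥E.homF.mapH1.range))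
      (fun a b hab => Subtype.ext (congrArg (fun q => (q : ↥E.homF.mapH1.range).1) hab))
  have h2 : Finite (S.H1 ⧸ E.homG.mapH1.ker) :=
    Finite.of_equiv _ (QuotientAddGroup.quotientKerEquivRange E.homG.mapH1).toEquiv.symm
  exact Finite.of_equiv _ (AddSubgroup.addGroupEquivQuotientProdAddSubgroup
    (s := E.homG.mapH1.ker)).symm

include E in
/-- **the dévissage inequality** -/
theorem card_le [Finite X] [Finite X''] [Finite S'.H1] [Finite S''.H1] :
    Nat.card S.H1 * Nat.card ↥S'.H0 * Nat.card ↥S''.H0 ≤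
      Nat.card S'.H1 * Nat.card S''.H1 * Nat.card ↥S.H0 := by
  have hfinH1 := E.finite_H1
  -- (a) `#H̃¹(X) ≤ #ker ψ₁ · #H̃¹(X'')`
  have ha : Nat.card S.H1 ≤ Nat.card ↥E.homG.mapH1.ker * Nat.card S''.H1 := by
    rw [AddSubgroup.card_eq_card_quotient_mul_card_addSubgroup E.homG.mapH1.ker,
      Nat.card_congr (QuotientAddGroup.quotientKerEquivRange E.homG.mapH1).toEquiv, mul_comm]
    exact Nat.mul_le_mul_left _ (Nat.card_le_card_of_injective Subtype.val Subtype.val_injective)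
  -- (b) `#ker ψ₁ ≤ #im φ₁`
  have hb : Nat.card ↥E.homG.mapH1.ker ≤ Nat.card ↥E.homF.mapH1.range :=
    AddSubgroup.card_le_of_le E.ker_le_range
  -- (c) `#H̃¹(X') = #im φ₁ · #ker φ₁`
  have hc : Nat.card S'.H1 = Nat.card ↥E.homF.mapH1.range * Nat.card ↥E.homF.mapH1.ker := by
    rw [AddSubgroup.card_eq_card_quotient_mul_card_addSubgroup E.homF.mapH1.ker,
      Nat.card_congr (QuotientAddGroup.quotientKerEquivRange E.homF.mapH1).toEquiv]
  -- (d) `#im δ ≤ #ker φ₁`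
  have hd : (Set.range E.delta).ncard ≤ Nat.card ↥E.homF.mapH1.ker := by
    rw [show Nat.card ↥E.homF.mapH1.ker = ((E.homF.mapH1.ker : Set S'.H1)).ncard from
      Nat.card_coe_set_eq _]
    refine Set.ncard_le_ncard ?_ (Set.toFinite _)
    rintro _ ⟨y, rfl⟩
    exact E.mapH1_delta y
  have he := E.card_H0_le
  have hf := E.card_map_mul_le
  calc Nat.card S.H1 * Nat.card ↥S'.H0 * Nat.card ↥S''.H0
      ≤ (Nat.card ↥E.homF.mapH1.range * Nat.card S''.H1) * Nat.card ↥S'.H0 *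
          ((Set.range E.delta).ncard * Nat.card ↥(S.H0.map E.g)) := by
        gcongr
        exact ha.trans (Nat.mul_le_mul_right _ hb)
    _ = Nat.card ↥E.homF.mapH1.range * (Set.range E.delta).ncard * Nat.card S''.H1 *
          (Nat.card ↥(S.H0.map E.g) * Nat.card ↥S'.H0) := by ring
    _ ≤ Nat.card ↥E.homF.mapH1.range * Nat.card ↥E.homF.mapH1.ker * Nat.card S''.H1 *
          Nat.card ↥S.H0 := by
        gcongr
    _ = Nat.card S'.H1 * Nat.card S''.H1 * Nat.card ↥S.H0 := by rw [hc]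

end MzsSES

end Fermat.Agent.Mazur
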