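/-
MAZUR (Track M), package (S) (helper5), part 7: **the base value for objects of étale type**.

If `G_ℚ` acts trivially on `X` and `X0 = 0`, a cone-Selmer cocycle `(c, m)` has `c` an everywhere
unramified homomorphism `G_ℚ → X`, hence `c = 0` (Minkowski, `S13Lib.eq_top_of_inertia_le`), and
`(0, m)` is a coboundary: `H̃¹(X) = 0` (`mzs_H1_subsingleton_etale`, `mzs_good_etale`).
-/
import Fermat.Agent.Lib.Mazur.Sel.Obj
import Fermat.Agent.Lib.S13.GlobalTrivial
import Fermat.Agent.Lib.TW.Local.PlaceConj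

set_option autoImplicit false
set_option linter.unusedSectionVars false
set_option linter.style.haveILetI false

namespace Fermat.Agent.Mazur

open Fermat.Agent.TW Fermat.Agent.S05Lib

local notation "Qb" => AlgebraicClosure ℚ
local notation "GQ" => (AlgebraicClosure ℚ ≃ₐ[ℚ] AlgebraicClosure ℚ)

variable {𝔭 𝔓 : FFPlace} {X : Type*} [AddCommGroup X] [DistribMulAction GQ X]

/-- a locally constant homomorphism `G_ℚ → X` which is trivial on all inertia groups away from `p`
and on the inertia group of one place `𝔭` over `p` is trivial -/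
theorem mzs_hom_eq_zero_of_unramified (𝔭 : FFPlace) (c : GQ → X)
    (hlc : IsLocallyConstant c) (hadd : ∀ g h : GQ, c (g * h) = c g + c h)
    (hunr : ∀ 𝔩 : FFPlace, 𝔩.p ≠ 𝔭.p → ∀ i ∈ 𝔩.I, c i = 0) (hp : ∀ i ∈ 𝔭.I, c i = 0) : c = 0 := by
  have h1 : c 1 = 0 := by
    have := hadd 1 1
    rw [mul_one] at this
    exact left_eq_add.mp this
  have hinv : ∀ g : GQ, c g⁻¹ = -c g := by
    intro g
    have := hadd g g⁻¹
    rw [mul_inv_cancel, h1] at this
    exact eq_neg_of_add_eq_zero_right this.symm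
  let H : Subgroup GQ :=
    { carrier := {g | c g = 0}
      one_mem' := h1
      mul_mem' := fun {a b} ha hb => by
        show c (a * b) = 0
        rw [hadd, ha, hb, add_zero]
      inv_mem' := fun {a} ha => by
        show c a⁻¹ = 0
        rw [hinv, ha, neg_zero] }
  haveI : H.Normal := ⟨fun n hn g => by
    show c (g * n * g⁻¹) = 0
    have hn' : c n = 0 := hn
    rw [hadd, hadd, hinv, hn']
    abel⟩
  have hopen : IsOpen (H : Set GQ) := hlc.isOpen_fiber 0
  have htop : H = ⊤ := by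
    refine S13Lib.eq_top_of_inertia_le H hopen 𝔭.p 𝔭.hp ?_ 𝔭.P 𝔭.hP ?_
    · intro q hq hqp A hA i hi
      exact hunr ⟨A, q, hq, hA⟩ hqp i hi
    · intro i hi
      exact hp i hi
  funext g
  have : g ∈ H := by rw [htop]; trivial
  exact this

/-- **étale type**: every cone-Selmer cocycle is a coboundary -/
theorem mzs_Z1_le_B1_etale (O : MzsObj 𝔭 𝔓 X)
    (htriv : ∀ (g : GQ) (x : X), g • x = x) (h0 : O.X0 = ⊥) : O.str.Z1 ≤ O.str.B1 := by
  rintro ⟨c, m⟩ ⟨hlc, hcoc, hloc, hI, -⟩
  simp only at hlc hcoc hloc hI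
  obtain ⟨hl1, hl2, -⟩ := hloc
  have hadd : ∀ g h : GQ, c (g * h) = c g + c h := by
    intro g h
    rw [hcoc g h, htriv]
  have hc : c = 0 := by
    refine mzs_hom_eq_zero_of_unramified 𝔭 c hlc hadd ?_ ?_
    · intro 𝔩 hp i hi
      by_cases hP : 𝔩.p = 𝔓.p
      · -- conjugate to the place `𝔓`
        obtain ⟨g, hg⟩ := tw_exists_smul_eq_of_liesOverPrime 𝔓.P 𝔩.P 𝔩.hp (hP ▸ 𝔓.hP) 𝔩.hP
        have hi' : g⁻¹ * i * g ∈ 𝔓.I := by
          have hi2 : i ∈ 𝔩.P.inertiaSubgroupIn ℚ := hi
          rw [← hg, Fermat.Agent.CFT.Bridge.mem_inertiaSubgroupIn_smul_iff] at hi2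
          exact hi2
        have h2 := hl2 _ hi'
        rw [h0, AddSubgroup.mem_bot, hadd, hadd] at h2
        have h3 : c g⁻¹ = -c g := by
          have h4 := hadd g g⁻¹
          rw [mul_inv_cancel] at h4
          have h5 : c 1 = 0 := by
            have := hadd 1 1
            rw [mul_one] at this
            exact left_eq_add.mp this
          rw [h5] at h4
          exact eq_neg_of_add_eq_zero_right h4.symm
        rw [h3] at h2
        have : c i = -c g + c i + c g := by abel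
        rw [this]
        exact h2
      · exact hl1 𝔩 hp hP i hi
    · intro i hi
      rw [hI i hi, htriv, sub_self]
  subst hc
  refine ⟨m, 0, O.str.Xp.zero_mem, ?_, ?_⟩
  · funext g
    simp [htriv]
  · simp

/-- **étale type**: `H̃¹ = 0` -/
theorem mzs_H1_subsingleton_etale (O : MzsObj 𝔭 𝔓 X)
    (htriv : ∀ (g : GQ) (x : X), g • x = x) (h0 : O.X0 = ⊥) : Subsingleton O.str.H1 := by
  refine ⟨fun a b => ?_⟩
  obtain ⟨q, rfl⟩ := QuotientAddGroup.mk_surjective a
  obtain ⟨q', rfl⟩ := QuotientAddGroup.mk_surjective b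
  rw [QuotientAddGroup.eq_iff_sub_mem, AddSubgroup.mem_addSubgroupOf]
  exact mzs_Z1_le_B1_etale O htriv h0 (O.str.Z1.sub_mem q.2 q'.2)

/-- **Base value, étale type**: the numerical criterion holds -/
theorem mzs_good_etale [Finite X] (O : MzsObj 𝔭 𝔓 X)
    (htriv : ∀ (g : GQ) (x : X), g • x = x) (h0 : O.X0 = ⊥) : O.str.Good O.X0 := by
  haveI := mzs_H1_subsingleton_etale O htriv h0
  refine ⟨inferInstance, ?_⟩
  rw [Nat.card_unique, one_mul]
  have hH0 : Nat.card ↥O.str.H0 = Nat.card ↥O.Xp := by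
    refine Nat.card_congr (Equiv.subtypeEquivRight fun x => ?_)
    rw [MzsStr.mem_H0]
    exact ⟨fun h => h.2, fun h => ⟨fun g => htriv g x, h⟩⟩
  rw [hH0, MzsObj.str_Xp, O.Xp.card_mul_index]
  exact Nat.le_of_dvd Nat.card_pos (AddSubgroup.index_dvd_card _)

end Fermat.Agent.Mazur
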